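import Fermat.Agent.JRED.ESNorm
import Fermat.Agent.JRED.GenusWrap
import Fermat.Agent.JRED.AtkinLehnerMain
import Fermat.Agent.DR.Mod.HeckeC

/-!
# The `q`-expansion of the Hecke norm in any characteristic (H2)

* `qExpand_normAlongC`: `N_α(β f)(q^ℓ) = f(q^{ℓ²}) ∏_b f(ζ^b q)` for `f ∈ F_N(k)`, `Nℓ ≠ 0` in `k`.
* `coeff_dlog_normAlongC`: the coefficients of the logarithmic derivative of `N_α(β f)`.
-/

set_option autoImplicit false
set_option linter.unusedSectionVars false
set_option linter.style.haveILetI false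

noncomputable section

open AlgebraicCurve ModularCurve IntermediateField

namespace Fermat.Agent.JAN.Dlog

open Fermat.Agent.S28 Fermat.Agent.JRED Fermat.Agent.JRED.ES Fermat.Agent.JRED.AL
open Fermat.Agent.FunField Fermat.Agent.DR.Mod Fermat.Agent.Jan.HeckeInputs
open Fermat.Agent.Jan.HeckeNorm (normAlong)

section Separable

/-- Separability along an algebra map. -/
theorem isSeparable_along {K E M : Type*} [Field K] [Field E] [Field M] [Algebra K E] [Algebra K M]
    (ψ : E →ₐ[K] M) (x : E) [hs : Algebra.IsSeparable K⟮ψ x⟯ M] :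
    letI := algebraAlong ψ
    Algebra.IsSeparable E M := by
  letI := algebraAlong ψ
  refine ⟨fun y => ?_⟩
  have h1 : IsSeparable K⟮ψ x⟯ y := hs.isSeparable' y
  -- lift the minimal polynomial
  have hle : K⟮ψ x⟯ ≤ ψ.fieldRange := by
    rw [IntermediateField.adjoin_simple_le_iff]
    exact ⟨x, rfl⟩
  have hsurj : ∀ z : K⟮ψ x⟯, ∃ e : E, ψ e = (z : M) := fun z => hle z.2
  choose g hg using hsurj
  have hψ : ∀ a b : E, ψ a = ψ b → a = b := fun a b h => ψ.injective h
  let φ : K⟮ψ x⟯ →+* E :=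
    { toFun := g
      map_one' := hψ _ _ (by rw [hg, map_one]; rfl)
      map_mul' := fun a b => hψ _ _ (by rw [hg, map_mul, hg, hg]; rfl)
      map_zero' := hψ _ _ (by rw [hg, map_zero]; rfl)
      map_add' := fun a b => hψ _ _ (by rw [hg, map_add, hg, hg]; rfl) }
  have hφ : ∀ z, algebraMap E M (φ z) = algebraMap K⟮ψ x⟯ M z := fun z => hg z
  have h3 : ((minpoly K⟮ψ x⟯ y).map φ).Separable := Polynomial.Separable.map h1
  refine h3.of_dvd (minpoly.dvd E y ?_)
  rw [Polynomial.aeval_def, Polynomial.eval₂_map, show (algebraMap E M).comp φ =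
    algebraMap K⟮ψ x⟯ M from RingHom.ext hφ, ← Polynomial.aeval_def, minpoly.aeval]

/-- The norm is the product over a complete set of embeddings, separable version. -/
theorem map_normAlong_eq_prod' {K E M Ω : Type*} [Field K] [Field E] [Field M]
    [Field Ω] [Algebra K E] [Algebra K M] (ψ : E →ₐ[K] M) (hfin : FiniteAlong K ψ)
    (hsep : letI := algebraAlong ψ; Algebra.IsSeparable E M)
    (i0 : E →+* Ω) {I : Type*} [Fintype I]
    (ι : I → (M →+* Ω)) (hι : ∀ i x, ι i (ψ x) = i0 x)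
    (hinj : Function.Injective ι) (hcard : Fintype.card I = finrankAlong K ψ) (y : M) :
    i0 (normAlong ψ y) = ∏ i, ι i y := by
  letI := algebraAlong ψ
  haveI : FiniteDimensional E M := hfin
  haveI : Algebra.IsSeparable E M := hsep
  exact map_norm_eq_prod i0 ι hι hinj hcard y

/-- The norm identity, abstract form, separable version. -/
theorem normAlong_abstract' {K E M Ω : Type*} [Field K] [Field E] [Field M]
    [Field Ω] [Algebra K E] [Algebra K M] (α β : E →ₐ[K] M) (hfin : FiniteAlong K α)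
    (hsep : letI := algebraAlong α; Algebra.IsSeparable E M)
    (inE : E →+* Ω) (inM : M →+* Ω) (s : Ω →+* Ω) {ℓ : ℕ} (t : Fin ℓ → (Ω →+* Ω))
    (w : M →+* M) (hw1 : ∀ x, w (α x) = β x) (hw2 : ∀ x, w (β x) = α x)
    (hα : ∀ x, inM (α x) = inE x) (hβ : ∀ x, inM (β x) = s (inE x))
    (hts : ∀ b x, t b (s x) = s x) (hdeg : finrankAlong K α = ℓ + 1)
    (y : E) (hy : ∀ b, t b (inE y) ≠ s (s (inE y)))
    (hy2 : ∀ b c, t b (inE y) = t c (inE y) → b = c) (f : E) :
    s (inE (normAlong α (β f))) = s (s (inE f)) * ∏ b, t b (inE f) := by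
  let ι : Option (Fin ℓ) → (M →+* Ω) := fun o => o.elim (s.comp inM)
    (fun b => (t b).comp (inM.comp w))
  have hnone0 : ∀ x, ι none x = s (inM x) := fun _ => rfl
  have hsome0 : ∀ b x, ι (some b) x = t b (inM (w x)) := fun _ _ => rfl
  have hnone : ∀ x, ι none (β x) = s (s (inE x)) := fun x => by rw [hnone0, hβ]
  have hsome : ∀ b x, ι (some b) (β x) = t b (inE x) := fun b x => by rw [hsome0, hw2, hα]
  have hι : ∀ i x, ι i (α x) = (s.comp inE) x := by
    rintro (_ | b) x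
    · rw [hnone0, hα]; rfl
    · rw [hsome0, hw1, hβ, hts]; rfl
  have hinj : Function.Injective ι := by
    rintro (_ | b) (_ | c) h
    · rfl
    · exfalso
      have h1 := hsome c y
      rw [← h, hnone] at h1
      exact hy c h1.symm
    · exfalso
      have h1 := hsome b y
      rw [h, hnone] at h1
      exact hy b h1.symm
    · have h1 := hsome b y
      rw [h, hsome] at h1
      rw [hy2 b c h1.symm]
  have hcard : Fintype.card (Option (Fin ℓ)) = finrankAlong K α := by
    rw [hdeg, Fintype.card_option, Fintype.card_fin]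
  have key := map_normAlong_eq_prod' α hfin hsep (s.comp inE) ι hι hinj hcard (β f)
  rw [Fintype.prod_option, hnone] at key
  simp only [hsome] at key
  exact key

end Separable

section Identity

variable {k : Type} [Field k] {N ℓ : ℕ} [NeZero N] [NeZero ℓ]

theorem finrankAlong_alphaC_eq (hℓ : ℓ.Prime) (hℓN : ¬ ℓ ∣ N) (h : ((N * ℓ : ℕ) : k) ≠ 0) :
    finrankAlong k (alphaC k N ℓ) = ℓ + 1 := by
  have h2 := finrankAlong_alphaC_mul N ℓ h
  rw [Fermat.Agent.Jan.HeckeCommute.dedekindPsi_mul_prime N ℓ (NeZero.ne N) hℓ, if_neg hℓN] at h2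
  exact Nat.eq_of_mul_eq_mul_left (Fermat.Agent.Jan.HeckeCommute.dedekindPsi_pos N) h2

theorem isSeparable_alphaC (h : ((N * ℓ : ℕ) : k) ≠ 0) :
    letI := algebraAlong (alphaC k N ℓ)
    Algebra.IsSeparable (modularFunctionFieldFullC k N) (modularFunctionFieldFullC k (N * ℓ)) := by
  have h2 : alphaC k N ℓ (jRed k N) = jRed k (N * ℓ) := Subtype.ext (coe_alphaC _ _ _ _)
  have h1 := isSeparable_full_jRed (K := k) h
  rw [← h2] at h1
  exact isSeparable_along (alphaC k N ℓ) (jRed k N)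

/-- **The norm identity** in any characteristic prime to `N ℓ`. -/
theorem qExpand_normAlongC [IsAlgClosed k] (hℓ : ℓ.Prime) (hℓN : ¬ ℓ ∣ N) (h : ((N * ℓ : ℕ) : k) ≠ 0)
    {ζ : kˣ} (hζ : IsPrimitiveRoot ζ ℓ) (f : modularFunctionFieldFullC k N) :
    qExpand k ℓ ((normAlong (alphaC k N ℓ) (betaC k N ℓ f) : modularFunctionFieldFullC k N) :
        LaurentSeries k) =
      qExpand k ℓ (qExpand k ℓ (f : LaurentSeries k)) *
        ∏ b : Fin ℓ, twist (ζ ^ (b : ℕ)) (f : LaurentSeries k) := by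
  have hpf : Fact ℓ.Prime := ⟨hℓ⟩
  obtain ⟨w, -, hw1, hw2⟩ := exists_atkinLehnerC (K := k) (M := N) (p := ℓ) hℓN h
  have hj : ∀ b : Fin ℓ, (twist (ζ ^ (b : ℕ)) ((jRed k N : modularFunctionFieldFullC k N) :
      LaurentSeries k)).coeff (-1) = (((ζ ^ (b : ℕ))⁻¹ : kˣ) : k) := by
    intro b
    rw [twist_coeff, zpow_neg_one]
    have : ((jRed k N : modularFunctionFieldFullC k N) : LaurentSeries k).coeff (-1) = 1 :=
      coeff_jqModC_neg_one k
    rw [this, mul_one]
  have hj0 : (qExpand k ℓ (qExpand k ℓ ((jRed k N : modularFunctionFieldFullC k N) :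
      LaurentSeries k))).coeff (-1) = 0 := by
    apply qExpand_coeff_of_not_dvd
    intro h
    have h1 : (ℓ : ℤ) ∣ 1 := by simpa using h
    have h2 : ℓ ∣ 1 := by exact_mod_cast h1
    exact hℓ.one_lt.ne' (Nat.dvd_one.mp h2)
  refine normAlong_abstract' (alphaC k N ℓ) (betaC k N ℓ) (finiteAlong_alphaC h)
    (isSeparable_alphaC h) (modularFunctionFieldFullC k N).toSubfield.subtype
    (modularFunctionFieldFullC k (N * ℓ)).toSubfield.subtype (qExpand k ℓ)
    (fun b : Fin ℓ => twist (ζ ^ (b : ℕ))) (w : _ →+* _) hw1 hw2 ?_ ?_ ?_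
    (finrankAlong_alphaC_eq hℓ hℓN h) (jRed k N) ?_ ?_ f
  · intro x
    exact coe_alphaC k N ℓ x
  · intro x
    exact coe_betaC k N ℓ x
  · intro b x
    apply twist_qExpand_of_pow_eq_one
    rw [← pow_mul, mul_comm, pow_mul, hζ.pow_eq_one, one_pow]
  · intro b h
    have h1 := hj b
    have h' : twist (ζ ^ (b : ℕ)) ((jRed k N : modularFunctionFieldFullC k N) : LaurentSeries k) =
      qExpand k ℓ (qExpand k ℓ ((jRed k N : modularFunctionFieldFullC k N) : LaurentSeries k)) := h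
    rw [h', hj0] at h1
    exact Units.ne_zero _ h1.symm
  · intro b c h
    have h1 := hj b
    have h' : twist (ζ ^ (b : ℕ)) ((jRed k N : modularFunctionFieldFullC k N) : LaurentSeries k) =
      twist (ζ ^ (c : ℕ)) ((jRed k N : modularFunctionFieldFullC k N) : LaurentSeries k) := h
    rw [h', hj c] at h1
    have h2 : ζ ^ (c : ℕ) = ζ ^ (b : ℕ) := inv_injective (Units.ext h1)
    exact (Fin.ext (hζ.pow_inj c.2 b.2 h2)).symm

end Identity

section Dlog

variable {k : Type} [Field k] {ℓ : ℕ} [NeZero ℓ]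

/-- logarithmic derivative of Laurent series -/
def dlogL (x : LaurentSeries k) : LaurentSeries k := thetaD k x / x

theorem dlogL_mul {x y : LaurentSeries k} (hx : x ≠ 0) (hy : y ≠ 0) :
    dlogL (x * y) = dlogL x + dlogL y := by
  rw [dlogL, dlogL, dlogL, thetaD_mul]
  field_simp
  ring

theorem dlogL_one : dlogL (1 : LaurentSeries k) = 0 := by
  rw [dlogL, thetaD_one, zero_div]

theorem dlogL_prod {ι : Type*} (s : Finset ι) (g : ι → LaurentSeries k) (hg : ∀ i ∈ s, g i ≠ 0) :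
    dlogL (∏ i ∈ s, g i) = ∑ i ∈ s, dlogL (g i) := by
  classical
  induction s using Finset.induction_on with
  | empty => rw [Finset.prod_empty, Finset.sum_empty, dlogL_one]
  | insert a s ha ih =>
    rw [Finset.prod_insert ha, Finset.sum_insert ha, dlogL_mul (hg a (Finset.mem_insert_self a s))
      (Finset.prod_ne_zero_iff.mpr fun i hi => hg i (Finset.mem_insert_of_mem hi)),
      ih fun i hi => hg i (Finset.mem_insert_of_mem hi)]

theorem dlogL_qExpand (x : LaurentSeries k) :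
    dlogL (qExpand k ℓ x) = (ℓ : LaurentSeries k) * qExpand k ℓ (dlogL x) := by
  rw [dlogL, dlogL, thetaD_qExpand, map_div₀, mul_div_assoc]

theorem thetaD_twist (u : kˣ) (x : LaurentSeries k) : thetaD k (twist u x) = twist u (thetaD k x) := by
  ext n
  rw [thetaD_coeff, twist_coeff, twist_coeff, thetaD_coeff]
  ring

theorem dlogL_twist (u : kˣ) (x : LaurentSeries k) : dlogL (twist u x) = twist u (dlogL x) := by
  rw [dlogL, dlogL, thetaD_twist, map_div₀]

theorem sum_twist_coeff {ζ : kˣ} (hζ : IsPrimitiveRoot ζ ℓ) (x : LaurentSeries k) (m : ℤ) :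
    (∑ b : Fin ℓ, twist (ζ ^ (b : ℕ)) x).coeff (ℓ * m) = (ℓ : k) * x.coeff (ℓ * m) := by
  rw [HahnSeries.coeff_sum]
  have h1 : ∀ b : Fin ℓ, (twist (ζ ^ (b : ℕ)) x).coeff (ℓ * m) = x.coeff (ℓ * m) := by
    intro b
    have h2 : ((ζ ^ (b : ℕ)) ^ ((ℓ : ℤ) * m) : kˣ) = 1 := by
      rw [zpow_mul, zpow_natCast, ← pow_mul, mul_comm (b : ℕ), pow_mul, hζ.pow_eq_one, one_pow,
        one_zpow]
    rw [twist_coeff, h2, Units.val_one, one_mul]
  rw [Finset.sum_congr rfl fun b _ => h1 b, Finset.sum_const, Finset.card_univ, Fintype.card_fin,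
    nsmul_eq_mul]

end Dlog

section Main

variable {k : Type} [Field k] {N ℓ : ℕ} [NeZero N] [NeZero ℓ]

/-- **(H2)** The coefficients of the logarithmic derivative of `N_α(β f)`. -/
theorem coeff_dlog_normAlongC [IsAlgClosed k] (hℓ : ℓ.Prime) (hℓN : ¬ ℓ ∣ N) (h : ((N * ℓ : ℕ) : k) ≠ 0)
    {ζ : kˣ} (hζ : IsPrimitiveRoot ζ ℓ) {f : modularFunctionFieldFullC k N} (hf : f ≠ 0) (m : ℤ) :
    (dlogL ((normAlong (alphaC k N ℓ) (betaC k N ℓ f) : modularFunctionFieldFullC k N) :
        LaurentSeries k)).coeff m =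
      (dlogL (f : LaurentSeries k)).coeff (ℓ * m) +
        (ℓ : k) * (if (ℓ : ℤ) ∣ m then (dlogL (f : LaurentSeries k)).coeff (m / ℓ) else 0) := by
  have hℓ0 : (ℓ : k) ≠ 0 := cast_ne_zero_right h
  have hf0 : (f : LaurentSeries k) ≠ 0 := fun h0 => hf (Subtype.ext h0)
  have hinj : Function.Injective (qExpand k ℓ) := RingHom.injective _
  have hq0 : qExpand k ℓ (qExpand k ℓ (f : LaurentSeries k)) ≠ 0 := by
    rw [Ne, map_eq_zero_iff _ hinj, map_eq_zero_iff _ hinj]
    exact hf0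
  have ht0 : ∀ b ∈ (Finset.univ : Finset (Fin ℓ)),
      twist (ζ ^ (b : ℕ)) (f : LaurentSeries k) ≠ 0 := by
    intro b _
    rw [Ne, map_eq_zero_iff _ (RingHom.injective (twist (ζ ^ (b : ℕ))))]
    exact hf0
  have key := congrArg dlogL (qExpand_normAlongC hℓ hℓN h hζ f)
  rw [dlogL_mul hq0 (Finset.prod_ne_zero_iff.mpr ht0), dlogL_prod _ _ ht0, dlogL_qExpand,
    dlogL_qExpand, dlogL_qExpand] at key
  have key2 := congrArg (fun x : LaurentSeries k => x.coeff (ℓ * m)) key
  simp only [dlogL_twist, HahnSeries.coeff_add] at key2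
  rw [sum_twist_coeff hζ, map_mul, map_natCast, natCast_mul_coeff, natCast_mul_coeff,
    natCast_mul_coeff, qExpand_coeff_mul, qExpand_coeff_mul] at key2
  have h3 : (qExpand k ℓ (dlogL (f : LaurentSeries k))).coeff m =
      if (ℓ : ℤ) ∣ m then (dlogL (f : LaurentSeries k)).coeff (m / ℓ) else 0 := by
    split_ifs with hd
    · obtain ⟨c, rfl⟩ := hd
      rw [qExpand_coeff_mul, Int.mul_ediv_cancel_left _ (by exact_mod_cast NeZero.ne ℓ)]
    · exact qExpand_coeff_of_not_dvd _ _ hd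
  rw [h3] at key2
  apply mul_left_cancel₀ hℓ0
  linear_combination key2

theorem exists_primitive_unit [IsAlgClosed k] (hℓ0 : (ℓ : k) ≠ 0) :
    ∃ ζ : kˣ, IsPrimitiveRoot ζ ℓ := by
  haveI : NeZero (ℓ : k) := ⟨hℓ0⟩
  obtain ⟨ζ, hζ⟩ := HasEnoughRootsOfUnity.exists_primitiveRoot k ℓ
  have hζ0 : ζ ≠ 0 := hζ.ne_zero (NeZero.ne ℓ)
  exact ⟨Units.mk0 ζ hζ0, IsPrimitiveRoot.coe_units_iff.mp (by rw [Units.val_mk0]; exact hζ)⟩

/-- **(H2)** without the choice of a root of unity, with `θ f / f`. -/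
theorem coeff_thetaD_div_normAlongC [IsAlgClosed k] (hℓ : ℓ.Prime) (hℓN : ¬ ℓ ∣ N)
    (h : ((N * ℓ : ℕ) : k) ≠ 0) {f : modularFunctionFieldFullC k N} (hf : f ≠ 0) (m : ℤ) :
    (thetaD k ((normAlong (alphaC k N ℓ) (betaC k N ℓ f) : modularFunctionFieldFullC k N) :
        LaurentSeries k) / ((normAlong (alphaC k N ℓ) (betaC k N ℓ f) :
          modularFunctionFieldFullC k N) : LaurentSeries k)).coeff m =
      (thetaD k (f : LaurentSeries k) / (f : LaurentSeries k)).coeff (ℓ * m) +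
        (ℓ : k) * (if (ℓ : ℤ) ∣ m then
          (thetaD k (f : LaurentSeries k) / (f : LaurentSeries k)).coeff (m / ℓ) else 0) := by
  obtain ⟨ζ, hζ⟩ := exists_primitive_unit (k := k) (ℓ := ℓ) (cast_ne_zero_right h)
  exact coeff_dlog_normAlongC hℓ hℓN h hζ hf m

end Main

end Fermat.Agent.JAN.Dlog
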