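import Fermat.Agent.JAN.Dlog.LinePow

/-!
# Residues of `g dlog f` in characteristic `p`

`E ⊆ k((q))` a function field over the algebraically closed field `k` of characteristic `p`.
If all orders of `f` are divisible by `p` and `g` is regular outside `∞`, the residue of
`g dlog f` at `∞` vanishes.
-/

set_option autoImplicit false

noncomputable section

open AlgebraicCurve IntermediateField
open Fermat.Agent.FunField Fermat.Agent.RR

namespace Fermat.Agent.JAN.Dlog

section Degree

variable {K : Type*} [Field K] [IsAlgClosed K] {E : IntermediateField K (LaurentSeries K)}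
  [FunctionField K E] (h0 : ∃ f : E, (f : LaurentSeries K).order = -1)

include h0 in
/-- The degree of `E` over `K(g)` for `g` with a single pole at `∞`. -/
theorem finrank_of_holo {g : E} (hg : g ∈ holo (qPlace E h0)) {n : ℕ} (hn : n ≠ 0)
    (hord : (g : LaurentSeries K).order = -(n : ℤ)) :
    Transcendental K g ∧ FiniteDimensional K⟮g⟯ E ∧ Module.finrank K⟮g⟯ E = n := by
  classical
  have h1 : (qPlace E h0).ord g = -(n : ℤ) := by rw [ord_qPlace, hord]
  have htr : Transcendental K g :=
    Fermat.Agent.JRED.DescentB.transcendental_of_ord_ne_zero (qPlace E h0) (by omega)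
  have hfin := Fermat.Agent.JRED.DescentB.finiteDimensional_adjoin htr
  refine ⟨htr, hfin, ?_⟩
  have h2 := Fermat.Agent.JRED.DescentB.degree_polesOf htr
  have h3 : polesOf (K := K) g = Finsupp.single (qPlace E h0) (n : ℤ) := by
    ext v
    rw [polesOf_apply, Finsupp.single_apply]
    split_ifs with h
    · rw [← h, h1]
      omega
    · have := mem_holo.mp hg v (Ne.symm h)
      omega
  rw [h3, degree_single_one] at h2
  exact_mod_cast h2.symm

theorem thetaD_ne_zero_of_order {K : Type*} [Field K] {g : LaurentSeries K} {n : ℕ}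
    (hn : (n : K) ≠ 0) (hord : g.order = -(n : ℤ)) : thetaD K g ≠ 0 := by
  intro h
  have h1 := congrArg (fun x : LaurentSeries K => x.coeff g.order) h
  simp only [thetaD_coeff, HahnSeries.coeff_zero, mul_eq_zero] at h1
  rcases h1 with h1 | h1
  · rw [hord] at h1
    push_cast at h1
    exact hn (neg_eq_zero.mp h1)
  · rw [HahnSeries.coeff_order_eq_zero] at h1
    rw [h1, HahnSeries.order_zero] at hord
    have : n = 0 := by omega
    exact hn (by rw [this, Nat.cast_zero])

omit [IsAlgClosed K] [FunctionField K E] in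
include h0 in
theorem exists_order_one : ∃ t : E, (t : LaurentSeries K).order = 1 := by
  obtain ⟨t, ht⟩ := exists_ord_eq_one (qPlace E h0)
  exact ⟨t, by rw [← ord_qPlace h0, ht]⟩

include h0 in
/-- Every function regular outside `∞` is a difference of two such functions with pole orders
congruent to `1` modulo `p`. -/
theorem exists_sub {p : ℕ} (hp : p ≠ 0) (g : E) (hg : g ∈ holo (qPlace E h0)) :
    ∃ (g₁ g₂ : E) (n : ℕ), g = g₁ - g₂ ∧ g₁ ∈ holo (qPlace E h0) ∧ g₂ ∈ holo (qPlace E h0) ∧
      (g₁ : LaurentSeries K).order = -((p * n + 1 : ℕ) : ℤ) ∧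
      (g₂ : LaurentSeries K).order = -((p * n + 1 : ℕ) : ℤ) := by
  set n := 2 * genusFF K E + pdeg (qPlace E h0) g + 1 with hn
  have hle : n ≤ p * n := Nat.le_mul_of_pos_left n (Nat.pos_of_ne_zero hp)
  obtain ⟨g₂, hg0, hg2, hg2'⟩ := exists_single_pole (qPlace E h0) (n := p * n + 1) (by omega)
  have hg2m : g₂ ∈ holo (qPlace E h0) := mem_holo.mpr hg2'
  refine ⟨g + g₂, g₂, n, by ring, add_mem hg hg2m, hg2m, ?_, ?_⟩
  · rw [← ord_qPlace h0, add_comm, ord_add_eq_of_lt _ hg0, hg2]
    by_cases h : g = 0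
    · exact Or.inl h
    · right
      have h2 := pdeg_eq hg
      rw [hg2]
      omega
  · rw [← ord_qPlace h0, hg2]

end Degree

section CharP

variable {k : Type*} [Field k] [IsAlgClosed k] {E : IntermediateField k (LaurentSeries k)}
  [FunctionField k E] [Fermat.FF.IsFF1 k E] (h0 : ∃ f : E, (f : LaurentSeries k).order = -1)
  {p : ℕ} [CharP k p]

include h0 in
theorem residue_dlog_aux (hR : ResK k) (hp : p ≠ 0) {f : E} (hf : f ≠ 0)
    (hdvd : ∀ v : Place k E, (p : ℤ) ∣ v.ord f) {g : E} (hg : g ∈ holo (qPlace E h0)) {n : ℕ}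
    (hn : (n : k) ≠ 0) (hord : (g : LaurentSeries k).order = -(n : ℤ)) :
    ((g : LaurentSeries k) * (thetaD k (f : LaurentSeries k) / f)).coeff 0 = 0 := by
  have hn0 : n ≠ 0 := by
    rintro rfl
    exact hn Nat.cast_zero
  obtain ⟨htr, hfin, hdeg⟩ := finrank_of_holo h0 hg hn0 hord
  have hθ := thetaD_ne_zero_of_order hn hord
  have hsep : Algebra.IsSeparable k⟮g⟯ E :=
    Fermat.Agent.JRED.GenusBound.isSeparable_of_thetaD_ne_zero hθ
  have h1 := norm_formula hR hn hord (exists_order_one h0) hdeg hf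
  obtain ⟨c, y, hcy⟩ := norm_eq_pow' htr hp hf hdvd
  have h3 : thetaD k ((Algebra.norm k⟮g⟯ f : E) : LaurentSeries k) = 0 := by
    rw [hcy]
    have h4 : (((algebraMap k E c * y ^ p : E)) : LaurentSeries k) =
        algebraMap k (LaurentSeries k) c * (y : LaurentSeries k) ^ p := rfl
    rw [h4, thetaD_mul, thetaD_algebraMap, mul_zero, add_zero, thetaD_pow]
    have h5 : ((p : ℕ) : LaurentSeries k) = 0 := by
      rw [← map_natCast (algebraMap k (LaurentSeries k)), CharP.cast_eq_zero k p, map_zero]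
    rw [h5, zero_mul, zero_mul, mul_zero]
  rw [h3, zero_div, mul_zero, HahnSeries.coeff_zero] at h1
  exact (mul_eq_zero.mp h1).resolve_left hn

include h0 in
/-- **Residues of `g dlog f`.** -/
theorem residue_dlog (hR : ResK k) (hp : p ≠ 0) {f : E} (hf : f ≠ 0)
    (hdvd : ∀ v : Place k E, (p : ℤ) ∣ v.ord f) {g : E} (hg : g ∈ holo (qPlace E h0)) :
    ((g : LaurentSeries k) * (thetaD k (f : LaurentSeries k) / f)).coeff 0 = 0 := by
  obtain ⟨g₁, g₂, n, rfl, hg1, hg2, ho1, ho2⟩ := exists_sub h0 hp g hg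
  have hn : ((p * n + 1 : ℕ) : k) ≠ 0 := by
    push_cast
    rw [CharP.cast_eq_zero k p]
    simp
  have h1 := residue_dlog_aux h0 hR hp hf hdvd hg1 hn ho1
  have h2 := residue_dlog_aux h0 hR hp hf hdvd hg2 hn ho2
  have h3 : ((g₁ - g₂ : E) : LaurentSeries k) * (thetaD k (f : LaurentSeries k) / f) =
      (g₁ : LaurentSeries k) * (thetaD k (f : LaurentSeries k) / f) -
      (g₂ : LaurentSeries k) * (thetaD k (f : LaurentSeries k) / f) := by
    rw [← sub_mul]; rfl
  rw [h3, HahnSeries.coeff_sub, h1, h2, sub_zero]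

end CharP

end Fermat.Agent.JAN.Dlog
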