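import Fermat.Agent.JAN.Dlog.CharP
import Fermat.Agent.FF.Kaehler
import Fermat.Agent.RH.Main
import Fermat.Agent.JRED.GenusWrap

/-!
# Residues of regular differentials in characteristic zero

If `y dj` is regular outside `∞` and `g` is regular outside `∞` then the residue of `g y dj` at
`∞` vanishes.
-/

set_option autoImplicit false

noncomputable section

open AlgebraicCurve IntermediateField Polynomial KaehlerDifferential
open Fermat.Agent.FunField Fermat.Agent.RR

namespace Fermat.Agent.JAN.Dlog

section Abstract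

variable {K F : Type*} [Field K] [Field F] [Algebra K F]

/-- `y dj` is regular at `v`. -/
def RegAt (v : Place K F) (y j : F) : Prop :=
  y = 0 ∨ 0 ≤ v.ordDifferential (y • D K F j)

theorem RegAt.zero (v : Place K F) (j : F) : RegAt v 0 j := Or.inl rfl

variable [Fermat.FF.IsFF1 K F] [IsAlgClosed K] [CharZero K]

omit [Fermat.FF.IsFF1 K F] [CharZero K] in
theorem transcendental_of_sub {x : F} {a : K} {v : Place K F}
    (hv : 0 < v.ord (x - algebraMap K F a)) : Transcendental K x := by
  have h1 : Transcendental K (x - algebraMap K F a) :=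
    Fermat.FF.transcendental_of_ord_ne_zero (v := v) (by omega)
  intro halg
  exact h1 (halg.sub (isAlgebraic_algebraMap a))

theorem regAt_iff_sub {v : Place K F} {y j : F} {a : K} (hv : 0 < v.ord (j - algebraMap K F a)) :
    RegAt v y j ↔ (y = 0 ∨ -(v.ord (j - algebraMap K F a) - 1) ≤ v.ord y) := by
  have htr := transcendental_of_sub hv
  rcases eq_or_ne y 0 with rfl | hy
  · simp [RegAt]
  rw [RegAt, Fermat.FF.ordDifferential_smul' v hy (Fermat.FF.D_ne_zero htr),
    Fermat.FF.ordDifferential_D_sub v a hv]
  simp only [hy, false_or]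
  constructor <;> intro h <;> omega

theorem regAt_iff_pole {v : Place K F} {y j : F} (hv : v.ord j < 0) :
    RegAt v y j ↔ (y = 0 ∨ 1 - v.ord j ≤ v.ord y) := by
  have htr : Transcendental K j :=
    Fermat.FF.transcendental_of_ord_ne_zero (v := v) (by omega)
  rcases eq_or_ne y 0 with rfl | hy
  · simp [RegAt]
  rw [RegAt, Fermat.FF.ordDifferential_smul' v hy (Fermat.FF.D_ne_zero htr),
    Fermat.FF.ordDifferential_D_of_ord_ne_zero v hv.ne]
  simp only [hy, false_or]
  constructor <;> intro h <;> omega

/-- change of variables -/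
theorem exists_change {g : F} (hg : Transcendental K g) (j : F) :
    ∃ c : F, (∀ (M : Type _) [AddCommGroup M] [Module F M] [Module K M] [IsScalarTower K F M]
      (δ : Derivation K F M), δ j = c • δ g) ∧
      ∀ (v : Place K F) (y : F), RegAt v y j → RegAt v (y * c) g := by
  refine ⟨Fermat.FF.ddt hg j, fun M _ _ _ _ δ => ?_, fun v y h => ?_⟩
  · have h1 := congrArg δ.liftKaehlerDifferential (Fermat.FF.D_eq_ddt_smul hg j)
    rwa [map_smul, Derivation.liftKaehlerDifferential_comp_D,
      Derivation.liftKaehlerDifferential_comp_D] at h1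
  · rcases h with rfl | h
    · rw [zero_mul]
      exact RegAt.zero v g
    · right
      rwa [mul_smul, ← Fermat.FF.D_eq_ddt_smul hg j]

theorem trace_eq_aeval {g y : F} (hg : Transcendental K g)
    (hreg : ∀ (v : Place K F) (a : K), 0 < v.ord (g - algebraMap K F a) → RegAt v y g) :
    ∃ P : K[X], ((Algebra.trace K⟮g⟯ F (y * g) : K⟮g⟯) : F) = aeval g P := by
  have := Fermat.FF.IsFF1.finiteDimensional_adjoin hg
  have := functionField_of_isFF1 K F
  rcases eq_or_ne y 0 with rfl | hy
  · exact ⟨0, by simp⟩
  have hmem := (Fermat.Agent.RH.trace_fin_iff hg (fun v a hv => Int.cast_ne_zero.mpr hv.ne')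
    hy).mpr fun v a hv => ((regAt_iff_sub hv).mp (hreg v a hv)).resolve_left hy
  have hgint : g ∈ integralClosure (Algebra.adjoin K {g}) F := by
    rw [mem_integralClosure_iff]
    exact isIntegral_algebraMap (x := (⟨g, Algebra.self_mem_adjoin_singleton K g⟩ :
      Algebra.adjoin K {g}))
  obtain ⟨⟨z, hz⟩, hz'⟩ := hmem g hgint
  obtain ⟨P, rfl⟩ := (Algebra.adjoin_singleton_eq_range_aeval K g ▸ hz : z ∈ (aeval g).range)
  exact ⟨P, by rw [← hz']; rfl⟩

end Abstract

section CharZero

variable {K : Type*} [Field K] [CharZero K]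

theorem coeff_zero_aeval_mul_thetaD (g : LaurentSeries K) (P : K[X]) :
    (aeval g P * thetaD K g).coeff 0 = 0 := by
  induction P using Polynomial.induction_on' with
  | add P Q hP hQ => rw [map_add, add_mul, HahnSeries.coeff_add, hP, hQ, add_zero]
  | monomial n a =>
    have h1 : ((n + 1 : ℕ) : LaurentSeries K) * (aeval g (monomial n a) * thetaD K g) =
        algebraMap K (LaurentSeries K) a * thetaD K (g ^ (n + 1)) := by
      rw [thetaD_pow, aeval_monomial, Nat.add_sub_cancel]
      ring
    have h2 : (algebraMap K (LaurentSeries K) ((n + 1 : ℕ) : K) *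
        (aeval g (monomial n a) * thetaD K g)).coeff 0 = 0 := by
      rw [map_natCast, h1, algebraMap_laurent, HahnSeries.coeff_single_zero_mul, thetaD_coeff]
      simp
    rw [algebraMap_laurent, HahnSeries.coeff_single_zero_mul] at h2
    refine (mul_eq_zero.mp h2).resolve_left ?_
    exact Nat.cast_ne_zero.mpr (Nat.succ_ne_zero n)

variable [IsAlgClosed K] {E : IntermediateField K (LaurentSeries K)}

variable [FunctionField K E] [Fermat.FF.IsFF1 K E] (h0 : ∃ f : E, (f : LaurentSeries K).order = -1)

include h0 in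
theorem residue_zero_aux {y j : E}
    (hreg : ∀ v : Place K E, v ≠ qPlace E h0 → RegAt v y j)
    {g : E} (hg : g ∈ holo (qPlace E h0)) {n : ℕ} (hn0 : n ≠ 0)
    (hord : (g : LaurentSeries K).order = -(n : ℤ)) :
    ((g : LaurentSeries K) * ((y : LaurentSeries K) * thetaD K (j : LaurentSeries K))).coeff 0 = 0 := by
  have hn : (n : K) ≠ 0 := Nat.cast_ne_zero.mpr hn0
  obtain ⟨htr, hfin, hdeg⟩ := finrank_of_holo h0 hg hn0 hord
  have hθ := thetaD_ne_zero_of_order hn hord
  have hsep : Algebra.IsSeparable K⟮g⟯ E :=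
    Fermat.Agent.JRED.GenusBound.isSeparable_of_thetaD_ne_zero hθ
  obtain ⟨c, hc, hcv⟩ := exists_change htr j
  have hc' : thetaD K (j : LaurentSeries K) = (c : LaurentSeries K) *
      thetaD K (g : LaurentSeries K) := hc _ (Fermat.Agent.JRED.GenusBound.thetaDer E)
  by_cases hyc : y * c = 0
  · have h1 : ((y : LaurentSeries K) * (c : LaurentSeries K)) = 0 := congrArg Subtype.val hyc
    rw [hc', ← mul_assoc (y : LaurentSeries K), h1, zero_mul, mul_zero, HahnSeries.coeff_zero]
  obtain ⟨P, hP⟩ := trace_eq_aeval (g := g) (y := y * c) htr (by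
    intro v a hv
    have hne : v ≠ qPlace E h0 := by
      rintro rfl
      have h1 : (qPlace E h0).ord g = -(n : ℤ) := by rw [ord_qPlace, hord]
      have h2 : (qPlace E h0).ord (g - algebraMap K E a) = -(n : ℤ) := by
        rw [← h1, sub_eq_add_neg, ← map_neg]
        have hg0 : g ≠ 0 := by
          rintro rfl
          rw [Place.ord_zero] at h1
          omega
        by_cases ha : algebraMap K E (-a) = 0
        · rw [ha, add_zero]
        exact Fermat.FF.ord_add_of_lt _ hg0 ha (by rw [Fermat.FF.ord_algebraMap, h1]; omega)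
      omega
    exact hcv v y (hreg v hne))
  have h1 := trace_formula (n := n) (g := g) (resK_of_charZero K) hn hord (exists_order_one h0)
    hdeg (y * c * g)
  have h2 : ((Algebra.trace K⟮g⟯ E (y * c * g) : E) : LaurentSeries K) =
      aeval (g : LaurentSeries K) P := by
    rw [hP]
    exact (Polynomial.aeval_algebraMap_apply (LaurentSeries K) g P).symm
  rw [h2, coeff_zero_aeval_mul_thetaD] at h1
  have h3 := (mul_eq_zero.mp h1).resolve_left hn
  rw [hc']
  have h4 : ((y * c * g : E) : LaurentSeries K) * thetaD K (g : LaurentSeries K) =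
      (g : LaurentSeries K) * ((y : LaurentSeries K) * ((c : LaurentSeries K) *
        thetaD K (g : LaurentSeries K))) := by
    rw [show ((y * c * g : E) : LaurentSeries K) = (y : LaurentSeries K) * c * g from rfl]
    ring
  rwa [h4] at h3

include h0 in
/-- **Residues of differentials regular outside `∞`.** -/
theorem residue_zero {y j : E}
    (hreg : ∀ v : Place K E, v ≠ qPlace E h0 → RegAt v y j)
    {g : E} (hg : g ∈ holo (qPlace E h0)) :
    ((g : LaurentSeries K) * ((y : LaurentSeries K) * thetaD K (j : LaurentSeries K))).coeff 0 = 0 := by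
  obtain ⟨g₁, g₂, n, rfl, hg1, hg2, ho1, ho2⟩ := exists_sub h0 one_ne_zero g hg
  have h1 := residue_zero_aux h0 hreg hg1 (Nat.succ_ne_zero _) ho1
  have h2 := residue_zero_aux h0 hreg hg2 (Nat.succ_ne_zero _) ho2
  rw [show ((g₁ - g₂ : E) : LaurentSeries K) = (g₁ : LaurentSeries K) - g₂ from rfl, sub_mul,
    HahnSeries.coeff_sub, h1, h2, sub_zero]

end CharZero

end Fermat.Agent.JAN.Dlog
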