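import Fermat.Agent.JAN.Dlog.CharZero
import Fermat.Agent.JRED.GoodFinal
import Fermat.Agent.JRED.XInt
import Fermat.Agent.RR.HoloModular
import Fermat.Agent.RH.ModularGenus

/-!
# Residues of `g f dq/q`, `f` a cusp form of weight two
-/

set_option autoImplicit false

noncomputable section

open AlgebraicCurve IntermediateField Polynomial ModularCurve
open Fermat.Agent.FunField Fermat.Agent.RR Fermat.Agent.JRED Fermat.Agent.MFF
open Fermat.Agent.JRED.GenusBound Fermat.Agent.JRED.BaseCheck Fermat.Agent.JRED.CuspLattice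

namespace Fermat.Agent.JAN.Dlog

section Abstract

variable {K F : Type*} [Field K] [Field F] [Algebra K F] [Fermat.FF.IsFF1 K F] [IsAlgClosed K]
  [CharZero K]

/-- regularity in the trace-dual form implies regularity -/
theorem regAt_of_regX {x y : F} (hx : Transcendental K x) (h1 : RegFinX K x y)
    (h2 : RegInfX K x y) (v : Place K F) : RegAt v y x := by
  classical
  rcases eq_or_ne y 0 with rfl | hy
  · exact RegAt.zero v x
  rcases lt_or_ge (v.ord x) 0 with hv | hv
  · rw [regAt_iff_pole hv]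
    right
    obtain ⟨m, u, hm, hu, hint⟩ := h2
    have hx0 : x ≠ 0 := by
      rintro rfl
      rw [Place.ord_zero] at hv
      omega
    have hxi : 0 < v.ord (x⁻¹ - algebraMap K F 0) := by
      rw [map_zero, sub_zero, v.ord_inv]
      omega
    have hu0 : u ≠ 0 := by
      rintro rfl
      simp at hu
    have h3 := ord_aeval_fin hxi hu0
    have h4 : u.rootMultiplicity 0 = 0 := by
      apply rootMultiplicity_eq_zero
      rwa [IsRoot.def, ← coeff_zero_eq_eval_zero]
    rw [h4, Nat.cast_zero, zero_mul] at h3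
    have hmem := Fermat.Agent.JRED.IntRed.mem_of_isIntegral_adjoin v (mem_of_ord_nonneg v (by rw [v.ord_inv]; omega)) hint
    have h5 := ord_nonneg_of_mem v hmem
    have hu' : aeval x⁻¹ u ≠ 0 := by
      intro h0
      have h6 : IsAlgebraic K x⁻¹ := ⟨u, hu0, h0⟩
      exact hx (by simpa using h6.inv)
    rw [v.ord_mul hu' (mul_ne_zero (pow_ne_zero _ hy) (pow_ne_zero _ hx0)), h3, zero_add,
      v.ord_mul (pow_ne_zero _ hy) (pow_ne_zero _ hx0), ord_pow, ord_pow] at h5
    push_cast at h5
    by_contra hlt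
    push Not at hlt
    have h6 : v.ord y ≤ - v.ord x := by omega
    have h7 : (m : ℤ) * v.ord y ≤ m * (- v.ord x) := by
      apply mul_le_mul_of_nonneg_left h6
      positivity
    nlinarith
  · have := Fermat.Agent.RR.functionField_of_isFF1 K F
    obtain ⟨a, ha⟩ := Fermat.Agent.RH.exists_ord_sub_pos hx hv
    rw [regAt_iff_sub ha]
    right
    obtain ⟨m, c, hm, hc, hint⟩ := h1
    have hc0 : c ≠ 0 := by
      rintro rfl
      exact hc a (dvd_zero _)
    have h3 := ord_aeval_fin ha hc0
    have h4 : c.rootMultiplicity a < m := by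
      by_contra hge
      push Not at hge
      exact hc a ((le_rootMultiplicity_iff hc0).mp hge)
    have hmem := Fermat.Agent.JRED.IntRed.mem_of_isIntegral_adjoin v (mem_of_ord_nonneg v hv) hint
    have h5 := ord_nonneg_of_mem v hmem
    have hc' : aeval x c ≠ 0 := fun h0 => hx ⟨c, hc0, h0⟩
    rw [v.ord_mul hc' (pow_ne_zero _ hy), h3, ord_pow] at h5
    by_contra hlt
    push Not at hlt
    have h6 : v.ord y ≤ - v.ord (x - algebraMap K F a) := by omega
    have h7 : (m : ℤ) * v.ord y ≤ m * (- v.ord (x - algebraMap K F a)) := by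
      apply mul_le_mul_of_nonneg_left h6
      positivity
    have h8 : ((c.rootMultiplicity a : ℕ) : ℤ) < m := by exact_mod_cast h4
    nlinarith

end Abstract

section Modular

variable {N : ℕ} [NeZero N]

local notation "Q̄" => AlgebraicClosure ℚ

theorem isFF1_full_bar : Fermat.FF.IsFF1 Q̄ (modularFunctionFieldFullC Q̄ N) := by
  have h := Fermat.Agent.RH.isFF1_bar N
  rwa [modularFunctionFieldBar_eq] at h

/-- Residues over `modularFunctionFieldFullC`. -/
theorem residue_of_jInt {w : LaurentSeries Q̄} {y : modularFunctionFieldFullC Q̄ N}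
    (hy : (y : LaurentSeries Q̄) * thetaD Q̄ (jqModC Q̄) = w) {n : ℕ} (hn : 1 ≤ n)
    (hJ : JInt Q̄ (n - 1) ((w ^ 6 / deltaL Q̄) ^ n)) {g : modularFunctionFieldFullC Q̄ N}
    (hg : g ∈ holo (cuspPlaceC Q̄ N)) : ((g : LaurentSeries Q̄) * w).coeff 0 = 0 := by
  have := isFF1_full_bar (N := N)
  have := Fermat.Agent.RR.functionField_of_isFF1 Q̄ (modularFunctionFieldFullC Q̄ N)
  have h1728 : (1728 : Q̄) ≠ 0 := by norm_num
  have hreg := (goodBaseJ (N := N) (k := Q̄) h1728).reg y w n hn hy hJ
  have hy1 : y * (goodBaseJ (N := N) (k := Q̄) h1728).c = y := mul_one y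
  rw [hy1] at hreg
  have h1 := residue_zero (exists_order_eq_neg_one' Q̄ N) (y := y) (j := jRed Q̄ N)
    (fun v _ => regAt_of_regX transcendental_jRed' hreg.1 hreg.2 v) hg
  rw [← hy]
  exact h1

/-- transport to the other description of the function field over `ℚ̄` -/
theorem residue_transport {E : IntermediateField Q̄ (LaurentSeries Q̄)}
    (hE : E = modularFunctionFieldFullC Q̄ N) (h0 : ∃ f : E, (f : LaurentSeries Q̄).order = -1)
    {w : LaurentSeries Q̄} (hy : w / thetaD Q̄ (jqModC Q̄) ∈ E) {n : ℕ} (hn : 1 ≤ n)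
    (hJ : JInt Q̄ (n - 1) ((w ^ 6 / deltaL Q̄) ^ n)) {g : E} (hg : g ∈ holo (qPlace E h0)) :
    ((g : LaurentSeries Q̄) * w).coeff 0 = 0 := by
  subst hE
  exact residue_of_jInt (y := ⟨_, hy⟩) (div_mul_cancel₀ _ thetaJ_ne_zero) hn hJ hg

/-- **Residues of `g f dq/q`**, `f` a cusp form of weight two, `g` a function regular outside
`∞`. -/
theorem residue_cusp {A : ValuationSubring Q̄} [Algebra Q̄ ℂ] {F : LaurentSeries A}
    {f : CuspForm (CongruenceSubgroup.Gamma0 N) 2} (hF : IsExp F f)
    {g : modularFunctionFieldBar N} (hg : g ∈ holo (cuspPlace N)) :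
    ((g : LaurentSeries Q̄) * coeffMap A.subtype F).coeff 0 = 0 := by
  refine residue_transport (N := N) (n := N) (modularFunctionFieldBar_eq N) _
    hF.div_theta_mem (Nat.one_le_iff_ne_zero.mpr (NeZero.ne N)) ?_ hg
  have h2 : emb Q̄ ℂ (deltaL Q̄) = deltaL ℂ := coeffMap_deltaL _
  have h3 := cusp_jInt f
  rw [LQ_Delta, ← hF, ← h2, ← map_pow, ← map_div₀, ← map_pow] at h3
  exact JInt.descend h3

end Modular

end Fermat.Agent.JAN.Dlog
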