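import Fermat.Agent.JAN.Dlog.LocalGlobal
import Fermat.Agent.FF.RelGlobal
import Fermat.Agent.RH.Infinity
import Fermat.Agent.RR.OfFF1

/-!
# Elements of `K(g)` all of whose orders are divisible by `p` are `p`-th powers
-/

set_option autoImplicit false

noncomputable section

open AlgebraicCurve IntermediateField Polynomial
open Fermat.Agent.FunField Fermat.Agent.RR

namespace Fermat.Agent.JAN.Dlog

section Line

variable {K F : Type*} [Field K] [Field F] [Algebra K F]

theorem ord_aeval_fin {v : Place K F} {x : F} {a : K} (hv : 0 < v.ord (x - algebraMap K F a))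
    {A : K[X]} (hA : A ≠ 0) :
    v.ord (aeval x A) = A.rootMultiplicity a * v.ord (x - algebraMap K F a) := by
  have hxa : x - algebraMap K F a ≠ 0 := by
    intro h0
    rw [h0] at hv
    simp at hv
  have hx : x ∈ v.toValuationSubring := by
    have h1 : x - algebraMap K F a ∈ v.toValuationSubring := mem_of_ord_nonneg v hv.le
    have h2 : algebraMap K F a ∈ v.toValuationSubring := v.algebraMap_mem' a
    simpa using add_mem h1 h2
  have hmem : ∀ B : K[X], aeval x B ∈ v.toValuationSubring := by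
    intro B
    rw [aeval_eq_sum_range]
    refine sum_mem fun i _ => ?_
    rw [Algebra.smul_def]
    exact mul_mem (v.algebraMap_mem' _) (pow_mem hx i)
  obtain ⟨B, hB, hB0⟩ := exists_eq_pow_rootMultiplicity_mul_and_not_dvd A hA a
  have hBa : B.eval a ≠ 0 := by
    intro h0
    exact hB0 (dvd_iff_isRoot.mpr h0)
  obtain ⟨B', hB'⟩ : ∃ B' : K[X], B = C (B.eval a) + (X - C a) * B' := by
    obtain ⟨B', h1⟩ := X_sub_C_dvd_sub_C_eval (a := a) (p := B)
    exact ⟨B', by rw [← h1]; ring⟩
  have h0 : v.ord (aeval x B) = 0 := by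
    have h1 : aeval x B = algebraMap K F (B.eval a) + (x - algebraMap K F a) * aeval x B' := by
      conv_lhs => rw [hB']
      simp
    rw [h1]
    have h2 : v.ord (algebraMap K F (B.eval a)) = 0 := ord_algebraMap v _
    have h3 : algebraMap K F (B.eval a) ≠ 0 := by simpa using hBa
    by_cases h4 : (x - algebraMap K F a) * aeval x B' = 0
    · rw [h4, add_zero, h2]
    · have h5 : 0 < v.ord ((x - algebraMap K F a) * aeval x B') := by
        rw [v.ord_mul hxa (right_ne_zero_of_mul h4)]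
        have := ord_nonneg_of_mem v (hmem B')
        omega
      rw [ord_add_eq_of_lt v h3 (Or.inr (by rw [h2]; exact h5)), h2]
  have hxB : aeval x B ≠ 0 := by
    intro h1
    have h2 : aeval x B = algebraMap K F (B.eval a) + (x - algebraMap K F a) * aeval x B' := by
      conv_lhs => rw [hB']
      simp
    rw [h1] at h2
    have h3 : v.ord (-(algebraMap K F (B.eval a))) = 0 := by
      rw [← map_neg]; exact ord_algebraMap v _
    have h4 : -(algebraMap K F (B.eval a)) = (x - algebraMap K F a) * aeval x B' := by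
      linear_combination h2
    have h5 : (x - algebraMap K F a) * aeval x B' ≠ 0 := by
      rw [← h4]
      simpa using hBa
    rw [h4, v.ord_mul hxa (right_ne_zero_of_mul h5)] at h3
    have := ord_nonneg_of_mem v (hmem B')
    omega
  conv_lhs => rw [hB]
  rw [map_mul, map_pow, map_sub, aeval_X, aeval_C, v.ord_mul (pow_ne_zero _ hxa) hxB, h0,
    ord_pow, add_zero]

end Line

section Pow

variable {K F : Type*} [Field K] [Field F] [Algebra K F] [IsAlgClosed K] {x : F}

theorem exists_eq_pow (hx : Transcendental K x) {p : ℕ} (hp : p ≠ 0) {N : K⟮x⟯} (hN : N ≠ 0)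
    (h : ∀ v : Place K K⟮x⟯, (p : ℤ) ∣ v.ord N) :
    ∃ (c : K) (y : K⟮x⟯), N = algebraMap K K⟮x⟯ c * y ^ p := by
  classical
  set g := AdjoinSimple.gen K x with hg
  have hgx : (g : F) = x := AdjoinSimple.coe_gen K x
  have hgt : Transcendental K g := by
    intro halg
    apply hx
    have := halg.algebraMap (A := F)
    rwa [show algebraMap K⟮x⟯ F g = x from hgx] at this
  have htop : K⟮g⟯ = ⊤ := by
    rw [eq_top_iff]
    rintro y -
    obtain ⟨P, Q, hPQ⟩ := Fermat.Agent.RH.exists_eq_aeval_div y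
    have h1 : y = aeval g P / aeval g Q := by
      apply Subtype.ext
      rw [hPQ]
      have h2 : ∀ P : K[X], ((aeval g P : K⟮x⟯) : F) = aeval x P := by
        intro P
        have := aeval_algebraMap_apply F g P
        rw [show algebraMap K⟮x⟯ F g = x from hgx] at this
        exact this.symm
      push_cast
      rw [h2, h2]
    have hmem : ∀ P : K[X], aeval g P ∈ K⟮g⟯ := fun P =>
      algebra_adjoin_le_adjoin K {g} (Polynomial.aeval_mem_adjoin_singleton K g)
    rw [h1]
    exact div_mem (hmem P) (hmem Q)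
  have hfin : FiniteDimensional K⟮g⟯ K⟮x⟯ := by
    refine ⟨⟨{1}, ?_⟩⟩
    rw [eq_top_iff]
    rintro y -
    rw [Finset.coe_singleton, Submodule.mem_span_singleton]
    exact ⟨⟨y, htop ▸ mem_top⟩, by rw [Algebra.smul_def, mul_one]; rfl⟩
  have hFF1 : Fermat.FF.IsFF1 K K⟮x⟯ := ⟨g, hgt, hfin⟩
  have hFF := functionField_of_isFF1 K K⟮x⟯
  have hquot : ∀ y : K⟮x⟯, ∃ P Q : K[X], y = aeval g P / aeval g Q := by
    intro y
    obtain ⟨P, Q, hPQ⟩ := Fermat.Agent.RH.exists_eq_aeval_div (⟨y, htop ▸ mem_top⟩ : K⟮g⟯)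
    exact ⟨P, Q, hPQ⟩
  have haeval : ∀ P : K[X], P ≠ 0 → aeval g P ≠ 0 := fun P hP h0 => hgt ⟨P, hP, h0⟩
  have hquot' : ∀ y : K⟮x⟯, y ≠ 0 → ∃ P Q : K[X], P ≠ 0 ∧ Q ≠ 0 ∧ y = aeval g P / aeval g Q := by
    intro y hy
    obtain ⟨P, Q, rfl⟩ := hquot y
    refine ⟨P, Q, ?_, ?_, rfl⟩
    · rintro rfl
      simp at hy
    · rintro rfl
      simp at hy
  obtain ⟨P, Q, hP, hQ, hPQ⟩ := hquot' N hN
  -- the multiplicities
  have hmult : ∀ a : K, (p : ℤ) ∣ (P.rootMultiplicity a : ℤ) - Q.rootMultiplicity a := by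
    intro a
    have h1 : Transcendental K (g - algebraMap K K⟮x⟯ a)⁻¹ := by
      intro halg
      have h2 : IsAlgebraic K (g - algebraMap K K⟮x⟯ a) := by
        have := halg.inv
        rwa [inv_inv] at this
      have h3 := h2.add (isAlgebraic_algebraMap a)
      rw [sub_add_cancel] at h3
      exact hgt h3
    have := hFF1.finiteDimensional_adjoin h1
    obtain ⟨v, hv⟩ := Fermat.Agent.RH.exists_pole h1
    rw [v.ord_inv] at hv
    have hv' : 0 < v.ord (g - algebraMap K K⟮x⟯ a) := by omega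
    have hord : ∀ y : K⟮x⟯, ∀ P Q : K[X], P ≠ 0 → Q ≠ 0 → y = aeval g P / aeval g Q →
        v.ord y = ((P.rootMultiplicity a : ℤ) - Q.rootMultiplicity a) *
          v.ord (g - algebraMap K K⟮x⟯ a) := by
      intro y P Q hP hQ hy
      rw [hy, div_eq_mul_inv, v.ord_mul (haeval P hP) (inv_ne_zero (haeval Q hQ)), v.ord_inv,
        ord_aeval_fin hv' hP, ord_aeval_fin hv' hQ]
      ring
    obtain ⟨t, ht⟩ := exists_ord_eq_one v
    obtain ⟨A, B, hA, hB, hAB⟩ := hquot' t (by rintro rfl; simp at ht)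
    have h2 := hord t A B hA hB hAB
    rw [ht] at h2
    have h3 : v.ord (g - algebraMap K K⟮x⟯ a) = 1 := by
      have h4 : v.ord (g - algebraMap K K⟮x⟯ a) ∣ 1 := ⟨_, by rw [mul_comm]; exact h2⟩
      rcases Int.isUnit_iff.mp (isUnit_of_dvd_one h4) with h5 | h5
      · exact h5
      · omega
    have h4 := hord N P Q hP hQ hPQ
    rw [h3, mul_one] at h4
    rw [← h4]
    exact h v
  set R := P * Q ^ (p - 1) with hR
  have hR0 : R ≠ 0 := mul_ne_zero hP (pow_ne_zero _ hQ)
  have hcount : ∀ a : K, p ∣ R.roots.count a := by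
    intro a
    rw [hR, roots_mul hR0, roots_pow, Multiset.count_add, Multiset.count_nsmul, count_roots,
      count_roots]
    have h1 := hmult a
    have h2 : ((P.rootMultiplicity a + (p - 1) * Q.rootMultiplicity a : ℕ) : ℤ) =
        ((P.rootMultiplicity a : ℤ) - Q.rootMultiplicity a) + p * Q.rootMultiplicity a := by
      have h3 : ((p - 1 : ℕ) : ℤ) = (p : ℤ) - 1 := by
        have := Nat.pos_of_ne_zero hp
        omega
      push_cast [h3]
      ring
    have h3 : (p : ℤ) ∣ ((P.rootMultiplicity a + (p - 1) * Q.rootMultiplicity a : ℕ) : ℤ) := by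
      rw [h2]
      exact dvd_add h1 (dvd_mul_right _ _)
    exact_mod_cast h3
  set S : K[X] := ∏ a ∈ R.roots.toFinset, (X - C a) ^ (R.roots.count a / p) with hS
  have hRS : R = C R.leadingCoeff * S ^ p := by
    have h1 := (IsAlgClosed.splits R).eq_prod_roots
    have h2 : (R.roots.map fun a => X - C a).prod = S ^ p := by
      rw [Finset.prod_multiset_map_count, hS, ← Finset.prod_pow]
      refine Finset.prod_congr rfl fun a _ => ?_
      rw [← pow_mul, Nat.div_mul_cancel (hcount a)]
    rwa [h2] at h1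
  refine ⟨R.leadingCoeff, aeval g S / aeval g Q, ?_⟩
  have h1 : aeval g R = algebraMap K K⟮x⟯ R.leadingCoeff * aeval g S ^ p := by
    conv_lhs => rw [hRS]
    simp
  have h2 : aeval g R = aeval g P * aeval g Q ^ (p - 1) := by
    rw [hR, map_mul, map_pow]
  have hQ' := haeval Q hQ
  have h3 : aeval g Q ^ p = aeval g Q ^ (p - 1) * aeval g Q := by
    rw [← pow_succ, Nat.sub_add_cancel (Nat.pos_of_ne_zero hp)]
  rw [hPQ, div_pow, ← mul_div_assoc, ← h1, h2, h3]
  field_simp

omit [IsAlgClosed K] in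
theorem isFF1_adjoin (hx : Transcendental K x) : Fermat.FF.IsFF1 K K⟮x⟯ := by
  set g := AdjoinSimple.gen K x with hg
  have hgx : (g : F) = x := AdjoinSimple.coe_gen K x
  have hgt : Transcendental K g := by
    intro halg
    apply hx
    have := halg.algebraMap (A := F)
    rwa [show algebraMap K⟮x⟯ F g = x from hgx] at this
  have htop : K⟮g⟯ = ⊤ := by
    rw [eq_top_iff]
    rintro y -
    obtain ⟨P, Q, hPQ⟩ := Fermat.Agent.RH.exists_eq_aeval_div y
    have h1 : y = aeval g P / aeval g Q := by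
      apply Subtype.ext
      rw [hPQ]
      have h2 : ∀ P : K[X], ((aeval g P : K⟮x⟯) : F) = aeval x P := by
        intro P
        have := aeval_algebraMap_apply F g P
        rw [show algebraMap K⟮x⟯ F g = x from hgx] at this
        exact this.symm
      push_cast
      rw [h2, h2]
    have hmem : ∀ P : K[X], aeval g P ∈ K⟮g⟯ := fun P =>
      algebra_adjoin_le_adjoin K {g} (Polynomial.aeval_mem_adjoin_singleton K g)
    rw [h1]
    exact div_mem (hmem P) (hmem Q)
  have hfin : FiniteDimensional K⟮g⟯ K⟮x⟯ := by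
    refine ⟨⟨{1}, ?_⟩⟩
    rw [eq_top_iff]
    rintro y -
    rw [Finset.coe_singleton, Submodule.mem_span_singleton]
    exact ⟨⟨y, htop ▸ mem_top⟩, by rw [Algebra.smul_def, mul_one]; rfl⟩
  exact ⟨g, hgt, hfin⟩

/-- If all the orders of `f` are divisible by `p`, its norm to `K(x)` is a constant times a `p`-th
power. -/
theorem norm_eq_pow [Fermat.FF.IsFF1 K F] (hx : Transcendental K x) [FiniteDimensional K⟮x⟯ F]
    {p : ℕ} (hp : p ≠ 0) {f : F} (hf : f ≠ 0) (h : ∀ v : Place K F, (p : ℤ) ∣ v.ord f) :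
    ∃ (c : K) (y : K⟮x⟯), Algebra.norm K⟮x⟯ f = algebraMap K K⟮x⟯ c * y ^ p := by
  classical
  have := isFF1_adjoin hx
  have := functionField_of_isFF1 K F
  refine exists_eq_pow hx hp (Algebra.norm_ne_zero_iff.mpr hf) fun v => ?_
  have h2 := Fermat.FF.Rel.normFormula K K⟮x⟯ F f hf (divOf (K := K) f)
    (fun w => divOf_apply f w) v
  rw [← h2, Divisor.pushforward_apply]
  refine Finset.dvd_sum fun w _ => ?_
  split_ifs with hw
  · rw [divOf_apply]
    exact (h w).mul_right _
  · exact dvd_zero _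

theorem norm_eq_pow' [Fermat.FF.IsFF1 K F] (hx : Transcendental K x) [FiniteDimensional K⟮x⟯ F]
    {p : ℕ} (hp : p ≠ 0) {f : F} (hf : f ≠ 0) (h : ∀ v : Place K F, (p : ℤ) ∣ v.ord f) :
    ∃ (c : K) (y : F), ((Algebra.norm K⟮x⟯ f : K⟮x⟯) : F) = algebraMap K F c * y ^ p := by
  obtain ⟨c, y, hcy⟩ := norm_eq_pow hx hp hf h
  exact ⟨c, y, by rw [hcy]; rfl⟩

end Pow

end Fermat.Agent.JAN.Dlog
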