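import Fermat.Agent.JAN.Dlog.Param
import Fermat.Agent.JRED.ESNorm
import Fermat.Agent.JRED.GenusWrap
import Fermat.Agent.JRED.DescentSpace
import Fermat.Agent.RR.HoloLaurent

/-!
# Residues at the cusp and traces / norms to `K(g)`

`E ⊆ K((q))` a function field over the algebraically closed field `K`, `g : E` with a single pole,
of order `n` invertible in `K`, at the `q`-adic place. Then
`n · res (y dg) = res (Tr_{E/K(g)}(y) dg)` and `n · res (g dlog f) = res (g dlog N_{E/K(g)}(f))`.
-/

set_option autoImplicit false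

noncomputable section

open AlgebraicCurve IntermediateField
open Fermat.Agent.FunField Fermat.Agent.RR

namespace Fermat.Agent.JAN.Dlog

/-- The trace is the sum over a complete set of embeddings into a field. -/
theorem map_trace_eq_sum {E M Ω : Type*} [Field E] [Field M] [Field Ω] [Algebra E M]
    [FiniteDimensional E M] [Algebra.IsSeparable E M] (i0 : E →+* Ω) {I : Type*} [Fintype I]
    (ι : I → (M →+* Ω)) (hι : ∀ i x, ι i (algebraMap E M x) = i0 x)
    (hinj : Function.Injective ι) (hcard : Fintype.card I = Module.finrank E M) (y : M) :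
    i0 (Algebra.trace E M y) = ∑ i, ι i y := by
  letI : Algebra E Ω := i0.toAlgebra
  have hmap : ∀ x, algebraMap Ω (AlgebraicClosure Ω) (i0 x) = algebraMap E (AlgebraicClosure Ω) x :=
    fun x => (IsScalarTower.algebraMap_apply E Ω (AlgebraicClosure Ω) x).symm
  let κ : I → (M →ₐ[E] AlgebraicClosure Ω) := fun i =>
    { (algebraMap Ω (AlgebraicClosure Ω)).comp (ι i) with
      commutes' := fun x => by
        change algebraMap Ω (AlgebraicClosure Ω) (ι i (algebraMap E M x)) = _
        rw [hι, hmap] }
  have hκ : ∀ i x, κ i x = algebraMap Ω (AlgebraicClosure Ω) (ι i x) := fun _ _ => rfl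
  have hκinj : Function.Injective κ := by
    intro i i' h
    apply hinj
    ext x
    apply (algebraMap Ω (AlgebraicClosure Ω)).injective
    rw [← hκ, ← hκ, h]
  have hbij : Function.Bijective κ := by
    rw [Fintype.bijective_iff_injective_and_card]
    exact ⟨hκinj, by rw [hcard, AlgHom.card E M (AlgebraicClosure Ω)]⟩
  apply (algebraMap Ω (AlgebraicClosure Ω)).injective
  rw [hmap, trace_eq_sum_embeddings (AlgebraicClosure Ω) (K := E) (x := y), map_sum]
  exact (Fintype.sum_bijective κ hbij _ _ fun i => (hκ i y).symm).symm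

/-- Logarithmic derivative of a product. -/
theorem dlog_prod {K : Type*} [Field K] {I : Type*} (s : Finset I) (f : I → LaurentSeries K)
    (hf : ∀ i ∈ s, f i ≠ 0) :
    thetaD K (∏ i ∈ s, f i) / ∏ i ∈ s, f i = ∑ i ∈ s, thetaD K (f i) / f i := by
  classical
  induction s using Finset.induction_on with
  | empty => simp [thetaD_one]
  | insert a s ha ih =>
    have h1 : f a ≠ 0 := hf a (Finset.mem_insert_self a s)
    have h2 : ∏ i ∈ s, f i ≠ 0 := Finset.prod_ne_zero_iff.mpr fun i hi =>
      hf i (Finset.mem_insert_of_mem hi)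
    rw [Finset.prod_insert ha, Finset.sum_insert ha, thetaD_mul,
      ← ih fun i hi => hf i (Finset.mem_insert_of_mem hi)]
    field_simp
    ring

section Single

variable {K : Type*} [Field K] [IsAlgClosed K] {E : IntermediateField K (LaurentSeries K)}
  {g : E} {n : ℕ}

/-- Ring homs `E → K((q))` fixing `K` and `g` fix `K(g)`. -/
theorem subL_eq_self {P : PowerSeries K} (h : IsParam P)
    (hg : subL h (g : LaurentSeries K) = (g : LaurentSeries K)) (x : K⟮g⟯) :
    subL h (((x : E)) : LaurentSeries K) = ((x : E) : LaurentSeries K) := by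
  obtain ⟨x, hx⟩ := x
  show subL h (x : LaurentSeries K) = (x : LaurentSeries K)
  induction hx using IntermediateField.adjoin_induction with
  | mem y hy =>
    rw [Set.mem_singleton_iff] at hy
    rw [hy, hg]
  | algebraMap c =>
    exact subL_algebraMap h c
  | add a b _ _ iha ihb =>
    show subL h ((a : LaurentSeries K) + b) = (a : LaurentSeries K) + b
    rw [map_add, iha, ihb]
  | inv a _ iha =>
    show subL h ((a : LaurentSeries K)⁻¹) = (a : LaurentSeries K)⁻¹
    rw [map_inv₀, iha]
  | mul a b _ _ iha ihb =>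
    show subL h ((a : LaurentSeries K) * b) = (a : LaurentSeries K) * b
    rw [map_mul, iha, ihb]

/-- **The complete set of embeddings**, from automorphisms of `K((q))`. -/
theorem exists_embeddings (hn : (n : K) ≠ 0) (hg : (g : LaurentSeries K).order = -(n : ℤ))
    (ht : ∃ t : E, (t : LaurentSeries K).order = 1) :
    ∃ (P : Fin n → PowerSeries K) (h : ∀ i, IsParam (P i)),
      (∀ i, subL (h i) (g : LaurentSeries K) = g) ∧
      Function.Injective fun i : Fin n => (subL (h i)).comp (algebraMap E (LaurentSeries K)) := by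
  have : NeZero (n : K) := ⟨hn⟩
  obtain ⟨ζ, hζ⟩ := HasEnoughRootsOfUnity.exists_primitiveRoot K n
  choose P h h1 h2 using fun i : Fin n => exists_auto hn hg (ζ := ζ ^ (i : ℕ))
    (by rw [← pow_mul, mul_comm, pow_mul, hζ.pow_eq_one, one_pow])
  refine ⟨P, h, h2, ?_⟩
  obtain ⟨t, ht⟩ := ht
  -- `t = X * T`
  obtain ⟨T, hT, hT0⟩ : ∃ T : PowerSeries K, (t : LaurentSeries K) =
      HahnSeries.ofPowerSeries ℤ K (PowerSeries.X * T) ∧ PowerSeries.constantCoeff T ≠ 0 := by
    refine ⟨(t : LaurentSeries K).powerSeriesPart, ?_, ?_⟩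
    · conv_lhs => rw [← LaurentSeries.single_order_mul_powerSeriesPart (t : LaurentSeries K)]
      rw [map_mul, HahnSeries.ofPowerSeries_X, ht]
    · rw [← PowerSeries.coeff_zero_eq_constantCoeff_apply, LaurentSeries.powerSeriesPart_coeff]
      have : (t : LaurentSeries K) ≠ 0 := by
        intro h0
        rw [h0, HahnSeries.order_zero] at ht
        exact zero_ne_one ht
      simpa using this
  have hcoeff : ∀ i, (subL (h i) (t : LaurentSeries K)).coeff 1 =
      ζ ^ (i : ℕ) * PowerSeries.constantCoeff T := by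
    intro i
    rw [hT, subL_coe, subst_X_mul (h i)]
    obtain ⟨U, hU⟩ := PowerSeries.X_dvd_iff.mpr (h i).c0
    have h3 : PowerSeries.constantCoeff U = ζ ^ (i : ℕ) := by
      rw [← h1 i, hU, show (1 : ℕ) = 0 + 1 from rfl, PowerSeries.coeff_succ_X_mul,
        PowerSeries.coeff_zero_eq_constantCoeff_apply]
    have h4 : PowerSeries.constantCoeff (T.subst (P i)) = PowerSeries.constantCoeff T := by
      obtain ⟨T', hT'⟩ := PowerSeries.X_dvd_iff.mpr (show PowerSeries.constantCoeff
        (T - PowerSeries.C (PowerSeries.constantCoeff T)) = 0 by simp)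
      have h5 : T = PowerSeries.C (PowerSeries.constantCoeff T) + PowerSeries.X * T' := by
        rw [← hT']; ring
      conv_lhs => rw [h5]
      rw [PowerSeries.subst_add (h i).hasSubst, subst_C' (h i), subst_X_mul (h i)]
      simp [(h i).c0]
    have h6 := HahnSeries.ofPowerSeries_apply_coeff (Γ := ℤ) (P i * T.subst (P i)) 1
    rw [Nat.cast_one] at h6
    rw [h6]
    conv_lhs => rw [hU]
    rw [mul_assoc, show (1 : ℕ) = 0 + 1 from rfl, PowerSeries.coeff_succ_X_mul,
      PowerSeries.coeff_zero_eq_constantCoeff_apply, map_mul, h3]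
    congr 1
    conv_rhs => rw [← h4]
    rw [hU]
  intro i j hij
  have h3 := congrArg (fun f => (f t).coeff 1) hij
  change (subL (h i) (t : LaurentSeries K)).coeff 1 = (subL (h j) (t : LaurentSeries K)).coeff 1
    at h3
  rw [hcoeff, hcoeff] at h3
  have h4 := mul_right_cancel₀ hT0 h3
  exact Fin.ext (hζ.pow_inj i.2 j.2 h4)

variable [FiniteDimensional K⟮g⟯ E] [Algebra.IsSeparable K⟮g⟯ E]

/-- **Local-global trace formula.** -/
theorem trace_formula (hR : ResK K) (hn : (n : K) ≠ 0)
    (hg : (g : LaurentSeries K).order = -(n : ℤ))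
    (ht : ∃ t : E, (t : LaurentSeries K).order = 1) (hdeg : Module.finrank K⟮g⟯ E = n) (y : E) :
    (n : K) * ((y : LaurentSeries K) * thetaD K (g : LaurentSeries K)).coeff 0 =
      (((Algebra.trace K⟮g⟯ E y : E) : LaurentSeries K) * thetaD K (g : LaurentSeries K)).coeff 0 := by
  obtain ⟨P, h, h1, h2⟩ := exists_embeddings hn hg ht
  have h3 := map_trace_eq_sum ((algebraMap E (LaurentSeries K)).comp (algebraMap K⟮g⟯ E))
    (fun i : Fin n => (subL (h i)).comp (algebraMap E (LaurentSeries K)))
    (fun i x => subL_eq_self (h i) (h1 i) x) h2 (by rw [Fintype.card_fin, hdeg]) y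
  change ((Algebra.trace K⟮g⟯ E y : E) : LaurentSeries K) =
    ∑ i : Fin n, subL (h i) (y : LaurentSeries K) at h3
  rw [h3, Finset.sum_mul, HahnSeries.coeff_sum]
  have h4 : ∀ i : Fin n, (subL (h i) (y : LaurentSeries K) * thetaD K (g : LaurentSeries K)).coeff 0
      = ((y : LaurentSeries K) * thetaD K (g : LaurentSeries K)).coeff 0 := by
    intro i
    have := coeff_zero_subL_mul (h i) hR (y : LaurentSeries K) (g : LaurentSeries K)
    rwa [h1 i] at this
  rw [Finset.sum_congr rfl fun i _ => h4 i]
  simp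

/-- **Local-global norm formula.** -/
theorem norm_formula (hR : ResK K) (hn : (n : K) ≠ 0)
    (hg : (g : LaurentSeries K).order = -(n : ℤ))
    (ht : ∃ t : E, (t : LaurentSeries K).order = 1) (hdeg : Module.finrank K⟮g⟯ E = n)
    {f : E} (hf : f ≠ 0) :
    (n : K) * ((g : LaurentSeries K) * (thetaD K (f : LaurentSeries K) / f)).coeff 0 =
      ((g : LaurentSeries K) * (thetaD K ((Algebra.norm K⟮g⟯ f : E) : LaurentSeries K) /
        ((Algebra.norm K⟮g⟯ f : E) : LaurentSeries K))).coeff 0 := by
  obtain ⟨P, h, h1, h2⟩ := exists_embeddings hn hg ht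
  have h3 := Fermat.Agent.JRED.ES.map_norm_eq_prod
    ((algebraMap E (LaurentSeries K)).comp (algebraMap K⟮g⟯ E))
    (fun i : Fin n => (subL (h i)).comp (algebraMap E (LaurentSeries K)))
    (fun i x => subL_eq_self (h i) (h1 i) x) h2 (by rw [Fintype.card_fin, hdeg]) f
  change ((Algebra.norm K⟮g⟯ f : E) : LaurentSeries K) =
    ∏ i : Fin n, subL (h i) (f : LaurentSeries K) at h3
  have hf' : (f : LaurentSeries K) ≠ 0 := fun h0 => hf (Subtype.ext h0)
  rw [h3, dlog_prod _ _ fun i _ => (map_ne_zero (subL (h i))).mpr hf', Finset.mul_sum,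
    HahnSeries.coeff_sum]
  have h4 : ∀ i : Fin n, ((g : LaurentSeries K) * (thetaD K (subL (h i) (f : LaurentSeries K)) /
      subL (h i) (f : LaurentSeries K))).coeff 0
      = ((g : LaurentSeries K) * (thetaD K (f : LaurentSeries K) / f)).coeff 0 := by
    intro i
    have := coeff_zero_subL_mul (h i) hR ((g : LaurentSeries K) / f) (f : LaurentSeries K)
    rw [map_div₀, h1 i] at this
    rw [show (g : LaurentSeries K) * (thetaD K (subL (h i) (f : LaurentSeries K)) /
      subL (h i) (f : LaurentSeries K)) = (g : LaurentSeries K) / subL (h i) (f : LaurentSeries K) *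
      thetaD K (subL (h i) (f : LaurentSeries K)) by ring, this]
    congr 1
    ring
  rw [Finset.sum_congr rfl fun i _ => h4 i]
  simp

end Single

end Fermat.Agent.JAN.Dlog
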