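import Mathlib
import Fermat.Agent.FunField.ThetaD

/-!
# Change of parameter in `K((q))` and invariance of residues

* `subL P : K((q)) →+* K((q))`, `f ↦ f(P(q))` for a parameter `P`.
* `ResK K`: the coefficients of `q⁰` in `P^{-m} θ(P) / P`, `m ≥ 1`, vanish, for every parameter `P`
  (true in characteristic zero, and for residue fields of local domains of characteristic zero).
* `coeff_zero_subL`: `res (S z · d(S a)) = res (z · da)`.
* `exists_auto`: for `g` of order `-n`, `n` invertible, `ζ ^ n = 1`, an `S` with `S g = g` and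
  `S q = ζ q + …`.
-/

set_option autoImplicit false

noncomputable section

open PowerSeries
open HahnSeries (ofPowerSeries)
open Fermat.Agent.FunField

namespace Fermat.Agent.JAN.Dlog

section Key

variable {R : Type*} [CommRing R]

theorem natCast_mul_coeff_eq_zero {U V : R⟦X⟧} (h : U * V = 1) (m : ℕ) :
    (m : R) * coeff m (V ^ (m + 1) * (U + X * d⁄dX R U)) = 0 := by
  have hd : U * d⁄dX R V + V * d⁄dX R U = 0 := by
    have := congrArg (fun f => d⁄dX R f) h
    simpa [Derivation.leibniz, smul_eq_mul] using this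
  have hV : V ^ 2 * d⁄dX R U = - d⁄dX R V := by
    have : V * (U * d⁄dX R V + V * d⁄dX R U) = 0 := by rw [hd, mul_zero]
    have h2 : V * (U * d⁄dX R V) = d⁄dX R V := by
      rw [← mul_assoc, mul_comm V U, h, one_mul]
    rw [mul_add, h2] at this
    linear_combination this
  rcases m with _ | m
  · simp
  have h1 : V ^ (m + 1 + 1) * (U + X * d⁄dX R U) = V ^ (m + 1) - X * (V ^ m * d⁄dX R V) := by
    have : V ^ (m + 1 + 1) * U = V ^ (m + 1) := by
      rw [pow_succ, mul_assoc, mul_comm V U, h, mul_one]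
    rw [mul_add, this]
    have : V ^ (m + 1 + 1) * (X * d⁄dX R U) = X * (V ^ m * (V ^ 2 * d⁄dX R U)) := by ring
    rw [this, hV]
    ring
  rw [h1, map_sub, coeff_succ_X_mul, mul_sub, sub_eq_zero]
  have h2 : ((m : R⟦X⟧) + 1) * (V ^ m * d⁄dX R V) = d⁄dX R (V ^ (m + 1)) := by
    rw [derivative_pow]
    push_cast
    simp [mul_assoc]
  have h3 := congrArg (PowerSeries.coeff m) h2
  rw [coeff_derivative] at h3
  have h4 : coeff m (((m : R⟦X⟧) + 1) * (V ^ m * d⁄dX R V)) =
      ((m : R) + 1) * coeff m (V ^ m * d⁄dX R V) := by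
    have : ((m : R⟦X⟧) + 1) = C ((m : R) + 1) := by simp
    rw [this, coeff_C_mul]
  rw [h4] at h3
  push_cast
  rw [h3]
  ring

end Key

/-- `res (P^{-m-1} dP) = 0` for all parameters `P = X U` and `m ≥ 1`. -/
def ResK (R : Type*) [CommRing R] : Prop :=
  ∀ U V : R⟦X⟧, U * V = 1 → ∀ m : ℕ, m ≠ 0 →
    coeff m (V ^ (m + 1) * (U + X * d⁄dX R U)) = 0

theorem resK_of_charZero (R : Type*) [CommRing R] [IsDomain R] [CharZero R] : ResK R :=
  fun _ _ h m hm => (mul_eq_zero.mp (natCast_mul_coeff_eq_zero h m)).resolve_left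
    (Nat.cast_ne_zero.mpr hm)

theorem derivative_map {R S : Type*} [CommRing R] [CommRing S] (f : R →+* S) (x : R⟦X⟧) :
    d⁄dX S (x.map f) = (d⁄dX R x).map f := by
  ext n
  simp [coeff_derivative]

theorem ResK.of_surjective {R k : Type*} [CommRing R] [IsLocalRing R] [Field k] (π : R →+* k)
    (hπ : Function.Surjective π) (h : ResK R) : ResK k := by
  intro U V hUV m hm
  have hπ' := hπ
  choose s hs using hπ
  let U' : R⟦X⟧ := PowerSeries.mk fun n => s (coeff n U)
  have hU' : U'.map π = U := by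
    ext n
    simp [U', hs]
  have hu : IsUnit U' := by
    rw [isUnit_iff_constantCoeff]
    have : IsLocalHom π := Function.Surjective.isLocalHom π hπ'
    refine isUnit_of_map_unit π _ (Ne.isUnit fun h1 => ?_)
    have h2 : constantCoeff U = 0 := by
      rw [← hU', ← coeff_zero_eq_constantCoeff_apply, coeff_map,
        coeff_zero_eq_constantCoeff_apply, h1]
    have h3 := congrArg constantCoeff hUV
    rw [map_mul, h2, zero_mul] at h3
    simp at h3
  obtain ⟨V', hV'⟩ := hu.exists_right_inv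
  have h1 := h U' V' hV' m hm
  have h2 : V'.map π = V := by
    have h3 : U * V'.map π = 1 := by
      rw [← hU', ← map_mul, hV', map_one]
    calc V'.map π = (V * U) * V'.map π := by rw [mul_comm V U, hUV, one_mul]
      _ = V * (U * V'.map π) := by ring
      _ = V := by rw [h3, mul_one]
  have h4 := congrArg π h1
  rw [map_zero, ← PowerSeries.coeff_map] at h4
  have h5 : (V' ^ (m + 1) * (U' + X * d⁄dX R U')).map π = V ^ (m + 1) * (U + X * d⁄dX k U) := by
    rw [RingHom.map_mul, RingHom.map_pow, RingHom.map_add, RingHom.map_mul, map_X, h2, hU',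
      ← derivative_map, hU']
  rwa [h5] at h4

variable {K : Type*} [Field K]

/-- A parameter: a power series of order one. -/
structure IsParam (P : K⟦X⟧) : Prop where
  c0 : PowerSeries.constantCoeff P = 0
  c1 : PowerSeries.coeff 1 P ≠ 0

namespace IsParam

variable {P : K⟦X⟧} (h : IsParam P)

include h

theorem hasSubst : HasSubst P := HasSubst.of_constantCoeff_zero' h.c0

theorem exists_unit : ∃ U V : K⟦X⟧, P = X * U ∧ U * V = 1 := by
  obtain ⟨U, hU⟩ := X_dvd_iff.mpr h.c0
  have h1 : PowerSeries.constantCoeff U ≠ 0 := by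
    have := h.c1
    rw [hU, show (1 : ℕ) = 0 + 1 from rfl, coeff_succ_X_mul,
      coeff_zero_eq_constantCoeff_apply] at this
    exact this
  have h2 : IsUnit U := by
    rw [isUnit_iff_constantCoeff]
    exact h1.isUnit
  obtain ⟨V, hV⟩ := h2.exists_right_inv
  exact ⟨U, V, hU, hV⟩

theorem subst_injective : Function.Injective (fun f : K⟦X⟧ => f.subst P) := by
  intro f g hfg
  have hinv := PowerSeries.subst_substInvOfIsUnit_right P h.c0 h.c1.isUnit
  have hs := HasSubst.substInvOfIsUnit P h.c1.isUnit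
  have h1 : ∀ f : K⟦X⟧, PowerSeries.subst (P.substInvOfIsUnit h.c1.isUnit)
      (PowerSeries.subst P f) = f := by
    intro f
    rw [subst_comp_subst_apply h.hasSubst hs, hinv]
    exact X_subst f
  rw [← h1 f, ← h1 g]
  exact congrArg _ hfg

theorem ne_zero : P ≠ 0 := by
  rintro rfl
  exact h.c1 (map_zero _)

omit h in
theorem coe_ne_zero (h : IsParam P) : HahnSeries.ofPowerSeries ℤ K P ≠ 0 := by
  rw [Ne, ← map_zero (HahnSeries.ofPowerSeries ℤ K)]
  exact fun h1 => h.ne_zero (HahnSeries.ofPowerSeries_injective h1)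

end IsParam

variable {P : K⟦X⟧} (h : IsParam P)

/-- `f ↦ f(P)` on power series. -/
def subPS : K⟦X⟧ →+* LaurentSeries K :=
  (HahnSeries.ofPowerSeries ℤ K).comp (substAlgHom (R := K) h.hasSubst : K⟦X⟧ →ₐ[K] K⟦X⟧).toRingHom

theorem subPS_apply (f : K⟦X⟧) : subPS h f = HahnSeries.ofPowerSeries ℤ K (f.subst P) := by
  rw [← coe_substAlgHom h.hasSubst]
  rfl

theorem subPS_injective : Function.Injective (subPS h) := by
  intro f g hfg
  rw [subPS_apply, subPS_apply] at hfg
  exact h.subst_injective (HahnSeries.ofPowerSeries_injective hfg)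

/-- `f ↦ f(P)` on Laurent series. -/
def subL : LaurentSeries K →+* LaurentSeries K :=
  IsFractionRing.lift (A := K⟦X⟧) (subPS_injective h)

theorem subL_coe (f : K⟦X⟧) :
    subL h (HahnSeries.ofPowerSeries ℤ K f) = HahnSeries.ofPowerSeries ℤ K (f.subst P) := by
  rw [← subPS_apply h]
  exact IsFractionRing.lift_algebraMap (subPS_injective h) f

include h in
theorem subst_C' (c : K) : (C c : K⟦X⟧).subst P = C c := by
  rw [← coe_substAlgHom h.hasSubst]
  exact (substAlgHom (R := K) h.hasSubst).commutes c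

include h in
theorem subst_X' : (X : K⟦X⟧).subst P = P := subst_X h.hasSubst

include h in
theorem subst_X_mul (f : K⟦X⟧) : (X * f).subst P = P * f.subst P := by
  rw [← coe_substAlgHom h.hasSubst, map_mul, coe_substAlgHom, subst_X' h]

theorem subL_algebraMap (c : K) :
    subL h (algebraMap K (LaurentSeries K) c) = algebraMap K (LaurentSeries K) c := by
  have h1 : algebraMap K (LaurentSeries K) c = HahnSeries.ofPowerSeries ℤ K (C c) := by
    rw [algebraMap_laurent, HahnSeries.ofPowerSeries_C]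
    rfl
  rw [h1, subL_coe, subst_C' h]

theorem subL_single_one : subL h (HahnSeries.single 1 1) = HahnSeries.ofPowerSeries ℤ K P := by
  rw [← HahnSeries.ofPowerSeries_X, subL_coe, subst_X' h]

theorem thetaD_coe (f : K⟦X⟧) : thetaD K (HahnSeries.ofPowerSeries ℤ K f) =
    HahnSeries.ofPowerSeries ℤ K (X * d⁄dX K f) := by
  rw [thetaD_ofPowerSeries, thetaPS_eq]

/-- `θ(P)/P`. -/
def dlogP (P : K⟦X⟧) : LaurentSeries K :=
  thetaD K (HahnSeries.ofPowerSeries ℤ K P) / HahnSeries.ofPowerSeries ℤ K P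

/-- The chain rule. -/
theorem thetaD_subL (f : LaurentSeries K) :
    thetaD K (subL h f) = subL h (thetaD K f) * dlogP P := by
  have hps : ∀ F : K⟦X⟧, thetaD K (subL h (HahnSeries.ofPowerSeries ℤ K F)) =
      subL h (thetaD K (HahnSeries.ofPowerSeries ℤ K F)) * dlogP P := by
    intro F
    rw [subL_coe, thetaD_coe, thetaD_coe, subL_coe, dlogP, thetaD_coe,
      subst_X_mul h, derivative_subst h.hasSubst]
    have := h.coe_ne_zero
    field_simp
    simp only [map_mul]
    ring
  obtain ⟨a, b, hb, rfl⟩ := IsFractionRing.div_surjective (A := K⟦X⟧) f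
  have hb0 : (algebraMap K⟦X⟧ (LaurentSeries K)) b ≠ 0 :=
    IsFractionRing.to_map_ne_zero_of_mem_nonZeroDivisors hb
  have ha := hps a
  have hb' := hps b
  rw [← LaurentSeries.coe_algebraMap] at ha hb'
  set α := algebraMap K⟦X⟧ (LaurentSeries K) a
  set β := algebraMap K⟦X⟧ (LaurentSeries K) b
  have h1 : α = (α / β) * β := by field_simp
  have h2 : thetaD K (subL h α) = subL h (α / β) * thetaD K (subL h β) +
      subL h β * thetaD K (subL h (α / β)) := by
    conv_lhs => rw [h1]
    rw [map_mul, thetaD_mul]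
  have h3 : thetaD K α = (α / β) * thetaD K β + β * thetaD K (α / β) := by
    conv_lhs => rw [h1]
    rw [thetaD_mul]
  rw [ha, hb', h3, map_add, map_mul, map_mul] at h2
  have h4 : subL h β ≠ 0 := (map_ne_zero _).mpr hb0
  apply mul_left_cancel₀ h4
  linear_combination -h2

theorem coeff_zero_single_mul (n : ℕ) (f : K⟦X⟧) :
    (HahnSeries.single (-(n : ℤ)) (1 : K) * HahnSeries.ofPowerSeries ℤ K f).coeff 0 =
      PowerSeries.coeff n f := by
  have := HahnSeries.coeff_single_mul_add (r := (1 : K))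
    (x := HahnSeries.ofPowerSeries ℤ K f) (a := (n : ℤ)) (b := -(n : ℤ))
  rw [add_neg_cancel, one_mul, HahnSeries.ofPowerSeries_apply_coeff] at this
  exact this

/-- **Invariance of residues.** -/
theorem coeff_zero_subL (hR : ResK K) (w : LaurentSeries K) :
    (subL h w * dlogP P).coeff 0 = w.coeff 0 := by
  obtain ⟨U, V, hPU, hUV⟩ := h.exists_unit
  have hPinv : (HahnSeries.ofPowerSeries ℤ K P)⁻¹ =
      HahnSeries.single (-1) 1 * HahnSeries.ofPowerSeries ℤ K V := by
    apply inv_eq_of_mul_eq_one_right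
    rw [hPU, map_mul, HahnSeries.ofPowerSeries_X]
    calc _ = (HahnSeries.single (1 : ℤ) (1 : K) * HahnSeries.single (-1) 1) *
          HahnSeries.ofPowerSeries ℤ K (U * V) := by rw [map_mul]; ring
      _ = 1 := by rw [hUV, HahnSeries.single_mul_single]; simp
  have hdP : d⁄dX K P = U + X * d⁄dX K U := by
    rw [hPU]
    simp [Derivation.leibniz, smul_eq_mul]
    ring
  have hc : dlogP P = HahnSeries.ofPowerSeries ℤ K (V * (U + X * d⁄dX K U)) := by
    rw [dlogP, thetaD_coe, div_eq_mul_inv, hPinv, hdP, map_mul, HahnSeries.ofPowerSeries_X, map_mul]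
    calc _ = (HahnSeries.single (1 : ℤ) (1 : K) * HahnSeries.single (-1) 1) *
          (HahnSeries.ofPowerSeries ℤ K V * HahnSeries.ofPowerSeries ℤ K (U + X * d⁄dX K U)) := by
            ring
      _ = _ := by rw [HahnSeries.single_mul_single]; simp
  have hinvX : subL h (HahnSeries.single (-1) 1) =
      HahnSeries.single (-1) 1 * HahnSeries.ofPowerSeries ℤ K V := by
    rw [← hPinv, ← subL_single_one h, ← map_inv₀]
    congr 1
    rw [eq_comm]
    apply inv_eq_of_mul_eq_one_right
    rw [HahnSeries.single_mul_single]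
    simp
  have hpow : ∀ n : ℕ, HahnSeries.single (-(n : ℤ)) (1 : K) = (HahnSeries.single (-1) 1) ^ n := by
    intro n
    rw [HahnSeries.single_pow]
    simp
  have key : ∀ (m : ℕ) (W : K⟦X⟧),
      (subL h (HahnSeries.single (-(m : ℤ)) 1 * HahnSeries.ofPowerSeries ℤ K W) * dlogP P).coeff 0 =
        PowerSeries.coeff m W := by
    intro m
    induction m with
    | zero =>
      intro W
      have h1 : HahnSeries.single (-((0 : ℕ) : ℤ)) (1 : K) = 1 := by simp
      rw [h1, one_mul, subL_coe, hc, ← map_mul]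
      have h2 := coeff_zero_single_mul 0 (W.subst P * (V * (U + X * d⁄dX K U)))
      rw [h1, one_mul] at h2
      rw [h2]
      obtain ⟨W', hW'⟩ := X_dvd_iff.mpr (show PowerSeries.constantCoeff
        (W - C (PowerSeries.constantCoeff W)) = 0 by simp)
      have h3 : W = C (PowerSeries.constantCoeff W) + X * W' := by rw [← hW']; ring
      have h4 : W.subst P = C (PowerSeries.constantCoeff W) + P * W'.subst P := by
        conv_lhs => rw [h3]
        rw [subst_add h.hasSubst, subst_C' h, subst_X_mul h]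
      have h5 : V * (U + X * d⁄dX K U) = 1 + X * (V * d⁄dX K U) := by
        rw [mul_add, mul_comm V U, hUV]; ring
      rw [h4, h5]
      simp [h.c0]
    | succ m ih =>
      intro W
      obtain ⟨W', hW'⟩ := X_dvd_iff.mpr (show PowerSeries.constantCoeff
        (W - C (PowerSeries.constantCoeff W)) = 0 by simp)
      have h3 : W = C (PowerSeries.constantCoeff W) + X * W' := by rw [← hW']; ring
      have h4 : HahnSeries.single (-((m + 1 : ℕ) : ℤ)) (1 : K) * HahnSeries.ofPowerSeries ℤ K W =
          algebraMap K (LaurentSeries K) (PowerSeries.constantCoeff W) *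
            HahnSeries.single (-((m + 1 : ℕ) : ℤ)) 1 +
          HahnSeries.single (-(m : ℤ)) 1 * HahnSeries.ofPowerSeries ℤ K W' := by
        conv_lhs => rw [h3]
        rw [map_add, mul_add, map_mul, HahnSeries.ofPowerSeries_X, HahnSeries.ofPowerSeries_C,
          algebraMap_laurent, ← mul_assoc, HahnSeries.single_mul_single]
        congr 1
        · rw [mul_comm]; rfl
        · rw [show (-((m + 1 : ℕ) : ℤ) + 1) = -(m : ℤ) by push_cast; ring, mul_one]
      rw [h4, map_add, add_mul, HahnSeries.coeff_add, ih, map_mul, subL_algebraMap, mul_assoc,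
        algebraMap_mul_coeff]
      have h5 : (subL h (HahnSeries.single (-((m + 1 : ℕ) : ℤ)) 1) * dlogP P).coeff 0 = 0 := by
        rw [hpow, map_pow, hinvX, mul_pow, ← hpow, hc, ← map_pow, mul_assoc, ← map_mul,
          coeff_zero_single_mul]
        have := hR U V hUV (m + 1) (by omega)
        rwa [pow_succ, mul_assoc] at this
      rw [h5, mul_zero, zero_add]
      conv_rhs => rw [h3]
      rw [map_add, coeff_succ_X_mul, coeff_C, if_neg (by omega), zero_add]
  -- general `w`
  obtain ⟨m, W, hw⟩ : ∃ (m : ℕ) (W : K⟦X⟧),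
      w = HahnSeries.single (-(m : ℤ)) 1 * HahnSeries.ofPowerSeries ℤ K W := by
    refine ⟨w.order.natAbs, X ^ ((w.order.natAbs : ℤ) + w.order).toNat * w.powerSeriesPart, ?_⟩
    conv_lhs => rw [← LaurentSeries.single_order_mul_powerSeriesPart w]
    have h1 : -(w.order.natAbs : ℤ) + (((w.order.natAbs : ℤ) + w.order).toNat : ℤ) = w.order := by
      omega
    rw [map_mul, map_pow, HahnSeries.ofPowerSeries_X, HahnSeries.single_pow, ← mul_assoc,
      HahnSeries.single_mul_single, nsmul_eq_mul, mul_one, h1, one_pow, mul_one]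
  rw [hw, key, coeff_zero_single_mul]

/-- `res (S z · d(S a)) = res (z · da)`. -/
theorem coeff_zero_subL_mul (hR : ResK K) (z a : LaurentSeries K) :
    (subL h z * thetaD K (subL h a)).coeff 0 = (z * thetaD K a).coeff 0 := by
  rw [thetaD_subL, ← mul_assoc, ← map_mul, coeff_zero_subL h hR]

omit h

/-- `n`-th roots of power series, `n` invertible. -/
theorem exists_pow_eq [IsAlgClosed K] {n : ℕ} (hn : (n : K) ≠ 0) {W : K⟦X⟧} (hW : IsUnit W) :
    ∃ U : K⟦X⟧, U ^ n = W := by
  have hn0 : n ≠ 0 := by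
    rintro rfl
    exact hn Nat.cast_zero
  obtain ⟨c, hc⟩ := IsAlgClosed.exists_pow_nat_eq (PowerSeries.constantCoeff W)
    (Nat.pos_of_ne_zero hn0)
  have hW0 : PowerSeries.constantCoeff W ≠ 0 := (isUnit_iff_constantCoeff.mp hW).ne_zero
  have hc0 : c ≠ 0 := by
    rintro rfl
    rw [zero_pow hn0] at hc
    exact hW0 hc.symm
  obtain ⟨U, hU, -⟩ := HenselianRing.is_henselian (I := Ideal.span {(X : K⟦X⟧)})
    (Polynomial.X ^ n - Polynomial.C W) (Polynomial.monic_X_pow_sub_C W hn0) (C c) (by
      rw [Ideal.mem_span_singleton, X_dvd_iff]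
      simp [hc]) (by
      have h1 : IsUnit ((Polynomial.derivative (Polynomial.X ^ n - Polynomial.C W)).eval
          (C c : K⟦X⟧)) := by
        rw [isUnit_iff_constantCoeff]
        simp only [Polynomial.derivative_sub, Polynomial.derivative_X_pow, Polynomial.derivative_C,
          sub_zero, Polynomial.eval_mul, Polynomial.eval_C, Polynomial.eval_pow,
          Polynomial.eval_X, map_mul, map_pow, constantCoeff_C]
        refine (Ne.isUnit ?_)
        refine mul_ne_zero ?_ (pow_ne_zero _ hc0)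
        simpa using hn
      exact h1.map _)
  refine ⟨U, ?_⟩
  simpa [Polynomial.IsRoot, sub_eq_zero] using hU

theorem exists_root [IsAlgClosed K] {n : ℕ} (hn : (n : K) ≠ 0) {g : LaurentSeries K}
    (hg : g.order = -(n : ℤ)) :
    ∃ Q : K⟦X⟧, IsParam Q ∧ ofPowerSeries ℤ K Q ^ n * g = 1 := by
  have hn0 : n ≠ 0 := by
    rintro rfl
    exact hn Nat.cast_zero
  have hg0 : g ≠ 0 := by
    rintro rfl
    rw [HahnSeries.order_zero] at hg
    omega
  have hunit : IsUnit g.powerSeriesPart := by
    rw [isUnit_iff_constantCoeff, ← coeff_zero_eq_constantCoeff_apply,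
      LaurentSeries.powerSeriesPart_coeff]
    refine Ne.isUnit ?_
    simpa using hg0
  obtain ⟨W, hW⟩ := hunit.exists_right_inv
  obtain ⟨U, hU⟩ := exists_pow_eq hn (IsUnit.of_mul_eq_one_right _ hW)
  refine ⟨X * U, ⟨by simp, ?_⟩, ?_⟩
  · rw [show (1 : ℕ) = 0 + 1 from rfl, coeff_succ_X_mul, coeff_zero_eq_constantCoeff_apply]
    intro h0
    have h1 := congrArg PowerSeries.constantCoeff hU
    rw [map_pow, h0, zero_pow hn0] at h1
    have h2 := congrArg PowerSeries.constantCoeff hW
    rw [map_mul, ← h1, mul_zero] at h2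
    simp at h2
  · conv_lhs => rw [← LaurentSeries.single_order_mul_powerSeriesPart g]
    rw [← map_pow, mul_pow, hU, hg, map_mul, map_pow, HahnSeries.ofPowerSeries_X,
      HahnSeries.single_pow]
    calc _ = (HahnSeries.single (n • (1 : ℤ)) ((1 : K) ^ n) * HahnSeries.single (-(n : ℤ)) 1) *
          ofPowerSeries ℤ K (g.powerSeriesPart * W) := by rw [map_mul]; ring
      _ = 1 := by
        rw [hW, HahnSeries.single_mul_single]
        simp

/-- Automorphisms of `K((q))` fixing `g`, for `ord g = -n`, `n` invertible. -/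
theorem exists_auto [IsAlgClosed K] {n : ℕ} (hn : (n : K) ≠ 0) {g : LaurentSeries K}
    (hg : g.order = -(n : ℤ)) {ζ : K} (hζ : ζ ^ n = 1) :
    ∃ (P : K⟦X⟧) (h : IsParam P), PowerSeries.coeff 1 P = ζ ∧ subL h g = g := by
  have hn0 : n ≠ 0 := by
    rintro rfl
    exact hn Nat.cast_zero
  have hζ0 : ζ ≠ 0 := by
    rintro rfl
    rw [zero_pow hn0] at hζ
    exact zero_ne_one hζ
  obtain ⟨Q, hQ, hQg⟩ := exists_root hn hg
  set R := Q.substInvOfIsUnit hQ.c1.isUnit with hR
  have hRs : HasSubst R := HasSubst.substInvOfIsUnit Q hQ.c1.isUnit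
  have hR1 : PowerSeries.coeff 1 R * PowerSeries.coeff 1 Q = 1 := by
    rw [hR, coeff_one_substInvOfIsUnit]
    exact IsUnit.val_inv_mul hQ.c1.isUnit
  have hR0 : PowerSeries.constantCoeff R = 0 := by simp [hR]
  have hQR : Q.subst R = X := subst_substInvOfIsUnit_right Q hQ.c0 hQ.c1.isUnit
  have hζQ : IsParam (C ζ * Q) := ⟨by simp [hQ.c0], by
    rw [coeff_C_mul]; exact mul_ne_zero hζ0 hQ.c1⟩
  have hc1 : PowerSeries.coeff 1 (R.subst (C ζ * Q)) = ζ := by
    obtain ⟨U, hU⟩ := X_dvd_iff.mpr hR0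
    have h1 : PowerSeries.constantCoeff U = PowerSeries.coeff 1 R := by
      rw [hU, show (1 : ℕ) = 0 + 1 from rfl, coeff_succ_X_mul, coeff_zero_eq_constantCoeff_apply]
    obtain ⟨U', hU'⟩ := X_dvd_iff.mpr (show PowerSeries.constantCoeff
      (U - C (PowerSeries.constantCoeff U)) = 0 by simp)
    have h2 : R = X * (C (PowerSeries.coeff 1 R) + X * U') := by
      rw [← hU', ← h1, hU]; ring
    obtain ⟨T, hT⟩ := X_dvd_iff.mpr hζQ.c0
    have h3 : R.subst (C ζ * Q) = (C ζ * Q) * (C (PowerSeries.coeff 1 R) +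
        (C ζ * Q) * U'.subst (C ζ * Q)) := by
      conv_lhs => rw [h2]
      rw [subst_X_mul hζQ, subst_add hζQ.hasSubst, subst_C' hζQ, subst_X_mul hζQ]
    have h4 : PowerSeries.constantCoeff T = ζ * PowerSeries.coeff 1 Q := by
      have h5 : PowerSeries.coeff 1 (C ζ * Q) = PowerSeries.constantCoeff T := by
        rw [hT, show (1 : ℕ) = 0 + 1 from rfl, coeff_succ_X_mul, coeff_zero_eq_constantCoeff_apply]
      rw [← h5, coeff_C_mul]
    rw [h3, hT, mul_assoc, show (1 : ℕ) = 0 + 1 from rfl, coeff_succ_X_mul,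
      coeff_zero_eq_constantCoeff_apply]
    simp only [map_mul, map_add, constantCoeff_C, constantCoeff_X, zero_mul, add_zero]
    rw [h4, mul_assoc, mul_comm (PowerSeries.coeff 1 Q), zero_add, hR1, mul_one]
  have hP : IsParam (R.subst (C ζ * Q)) := ⟨by
    obtain ⟨U, hU⟩ := X_dvd_iff.mpr hR0
    rw [hU, subst_X_mul hζQ]
    simp [hQ.c0], by rw [hc1]; exact hζ0⟩
  refine ⟨_, hP, hc1, ?_⟩
  have h1 : Q.subst (R.subst (C ζ * Q)) = C ζ * Q := by
    rw [← subst_comp_subst_apply hRs hζQ.hasSubst, hQR, subst_X' hζQ]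
  have h2 : subL hP (ofPowerSeries ℤ K Q ^ n) = ofPowerSeries ℤ K Q ^ n := by
    rw [map_pow, subL_coe, h1, map_mul, mul_pow, HahnSeries.ofPowerSeries_C, ← map_pow, hζ,
      map_one, one_mul]
  have h3 : g = (ofPowerSeries ℤ K Q ^ n)⁻¹ := (eq_inv_of_mul_eq_one_right hQg)
  rw [h3, map_inv₀, h2]

end Fermat.Agent.JAN.Dlog
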