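import Fermat.Agent.JAN.Dlog.CuspZero
import Fermat.Agent.JRED.Main
import Fermat.Agent.JRED.CuspRed
import Fermat.Agent.RR.HoloEchelon

/-!
# The residue-dual description of the reductions of cusp forms of weight two
-/

set_option autoImplicit false

noncomputable section

open AlgebraicCurve IntermediateField ModularCurve
open Fermat.Agent.FunField Fermat.Agent.RR Fermat.Agent.JRED Fermat.Agent.MFF
open Fermat.Agent.JRED.CuspLattice

namespace Fermat.Agent.JAN.Dlog

section Abstract

variable {k : Type*} [Field k] (E : IntermediateField k (LaurentSeries k))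
  (h0 : ∃ f : E, (f : LaurentSeries k).order = -1)

/-- The series `w` without constant term such that `g w` has constant term `0` for all `g` with poles
only at `∞`. -/
def resSpace : Submodule k (LaurentSeries k) where
  carrier := {w | (∀ m : ℤ, m ≤ 0 → w.coeff m = 0) ∧
    ∀ g ∈ holo (qPlace E h0), ((g : LaurentSeries k) * w).coeff 0 = 0}
  add_mem' := by
    rintro a b ⟨ha, ha'⟩ ⟨hb, hb'⟩
    refine ⟨fun m hm => ?_, fun g hg => ?_⟩
    · rw [HahnSeries.coeff_add, ha m hm, hb m hm, add_zero]
    · rw [mul_add, HahnSeries.coeff_add, ha' g hg, hb' g hg, add_zero]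
  zero_mem' := ⟨fun _ _ => HahnSeries.coeff_zero, fun g _ => by
    rw [mul_zero, HahnSeries.coeff_zero]⟩
  smul_mem' := by
    rintro c a ⟨ha, ha'⟩
    rw [← HahnSeries.C_mul_eq_smul]
    refine ⟨fun m hm => ?_, fun g hg => ?_⟩
    · rw [HahnSeries.C_apply, HahnSeries.coeff_single_zero_mul, ha m hm, mul_zero]
    · rw [mul_left_comm, HahnSeries.C_apply, HahnSeries.coeff_single_zero_mul, ha' g hg, mul_zero]

variable {E}

theorem mem_resSpace {w : LaurentSeries k} :
    w ∈ resSpace E h0 ↔ (∀ m : ℤ, m ≤ 0 → w.coeff m = 0) ∧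
    ∀ g ∈ holo (qPlace E h0), ((g : LaurentSeries k) * w).coeff 0 = 0 := Iff.rfl

/-- The coefficients at the gaps. -/
def gapMap : LaurentSeries k →ₗ[k] (((poleSet (qPlace E h0))ᶜ : Set ℕ) → k) where
  toFun w n := w.coeff ((n : ℕ) : ℤ)
  map_add' a b := by
    ext n
    exact HahnSeries.coeff_add ..
  map_smul' c a := by
    ext n
    rw [← HahnSeries.C_mul_eq_smul, HahnSeries.C_apply, HahnSeries.coeff_single_zero_mul]
    rfl

theorem eq_zero_of_gapMap {w : LaurentSeries k} (hw : w ∈ resSpace E h0)
    (h : gapMap h0 w = 0) : w = 0 := by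
  obtain ⟨h1, h2⟩ := hw
  have key : ∀ n : ℕ, w.coeff (n : ℤ) = 0 := by
    intro n
    induction n using Nat.strong_induction_on with
    | _ n ih =>
      rcases Nat.eq_zero_or_pos n with rfl | hn
      · exact h1 0 le_rfl
      by_cases hnP : n ∈ poleSet (qPlace E h0)
      · obtain ⟨g, hg, hg0, hgn⟩ := hnP
        rw [ord_qPlace] at hgn
        have h3 := h2 g hg
        have hgc : (g : LaurentSeries k).coeff (-(n : ℤ)) ≠ 0 := by
          rw [← hgn, Ne, HahnSeries.coeff_order_eq_zero]
          exact fun h => hg0 (Subtype.ext h)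
        rw [HahnSeries.coeff_mul, Finset.sum_eq_single (-(n : ℤ), (n : ℤ))] at h3
        · exact (mul_eq_zero.mp h3).resolve_left hgc
        · rintro ⟨i, j⟩ hij hne
          rw [Finset.mem_antidiagonal] at hij
          obtain ⟨hi, hj, hij⟩ := hij
          simp only at hi hj hij
          have hi' : -(n : ℤ) ≤ i := by
            rw [← hgn]
            exact HahnSeries.order_le_of_coeff_ne_zero hi
          have hj' : 0 < j := by
            by_contra hle
            push Not at hle
            exact hj (h1 j hle)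
          obtain ⟨m, rfl⟩ := Int.eq_ofNat_of_zero_le hj'.le
          have hmn : m < n := by
            rcases lt_or_eq_of_le (show m ≤ n by omega) with h4 | h4
            · exact h4
            · exfalso
              apply hne
              subst h4
              ext
              · simp only
                omega
              · rfl
          simp only [ih m hmn, mul_zero]
        · intro hnot
          by_contra hne
          apply hnot
          rw [Finset.mem_antidiagonal]
          refine ⟨hgc, fun h => ?_, by simp⟩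
          simp only at h
          rw [h, mul_zero] at hne
          exact hne rfl
      · exact congrFun h ⟨n, hnP⟩
  ext m
  rcases le_or_gt m 0 with hm | hm
  · exact h1 m hm
  · obtain ⟨n, rfl⟩ := Int.eq_ofNat_of_zero_le hm.le
    exact key n

variable [IsAlgClosed k] [FunctionField k E]

theorem finiteDimensional_resSpace : FiniteDimensional k (resSpace E h0) := by
  have : Finite ((poleSet (qPlace E h0))ᶜ : Set ℕ) := finite_compl_poleSet (qPlace E h0)
  refine FiniteDimensional.of_injective ((gapMap h0).domRestrict (resSpace E h0)) ?_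
  rw [injective_iff_map_eq_zero]
  intro w hw
  exact Subtype.ext (eq_zero_of_gapMap h0 w.2 hw)

theorem finrank_resSpace_le : Module.finrank k (resSpace E h0) ≤ genusFF k E := by
  have hfin : Finite ((poleSet (qPlace E h0))ᶜ : Set ℕ) := finite_compl_poleSet (qPlace E h0)
  have := Fintype.ofFinite ((poleSet (qPlace E h0))ᶜ : Set ℕ)
  have h1 : Module.finrank k (resSpace E h0) ≤
      Module.finrank k (((poleSet (qPlace E h0))ᶜ : Set ℕ) → k) := by
    refine LinearMap.finrank_le_finrank_of_injective
      (f := (gapMap h0).domRestrict (resSpace E h0)) ?_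
    rw [injective_iff_map_eq_zero]
    intro w hw
    exact Subtype.ext (eq_zero_of_gapMap h0 w.2 hw)
  rw [Module.finrank_fintype_fun_eq_card] at h1
  have h2 := Fermat.Agent.RR.curveAlg_genus (qPlace E h0)
  have h3 : (Fermat.Agent.RR.curveAlg (qPlace E h0)).genus = (poleSet (qPlace E h0))ᶜ.ncard := rfl
  rw [← h2, h3, Set.ncard_eq_toFinset_card', Set.toFinset_card]
  exact h1

end Abstract

section Modular

variable {N : ℕ} [NeZero N]

theorem coeff_redF_of_nonpos (k : Type*) [Field k] (f : CuspForm.intLattice N 2) {m : ℤ}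
    (hm : m ≤ 0) : (redF N k f).coeff m = 0 := by
  rcases lt_or_eq_of_le hm with h | rfl
  · rw [redF, coeffMap_coeff, intL_coeff_neg f h, map_zero]
  · have h1 := redF_coeff (k := k) f 0
    rw [Nat.cast_zero] at h1
    have h2 : Fermat.Agent.HeckeDuality.intCoeff f 0 = 0 := by
      have h3 := Fermat.Agent.HeckeDuality.coe_intCoeff f 0
      rw [Fermat.Agent.HeckeDuality.qc_apply_zero] at h3
      exact_mod_cast h3
    rw [h1, h2, Int.cast_zero]

variable {A : ValuationSubring (AlgebraicClosure ℚ)} {k : Type} [Field k] {π : A →+* k}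

theorem coeff_of_mem_cuspSpace {w : LaurentSeries k} (hw : w ∈ cuspSpace N k) {m : ℤ}
    (hm : m ≤ 0) : w.coeff m = 0 := by
  induction hw using Submodule.span_induction with
  | mem x hx =>
    obtain ⟨f, rfl⟩ := hx
    exact coeff_redF_of_nonpos k f hm
  | zero => exact HahnSeries.coeff_zero
  | add x y _ _ hx hy => rw [HahnSeries.coeff_add, hx, hy, add_zero]
  | smul c x _ hx =>
    rw [← HahnSeries.C_mul_eq_smul, HahnSeries.C_apply, HahnSeries.coeff_single_zero_mul, hx,
      mul_zero]

/-- Reductions of cusp forms are in the residue space. -/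
theorem cuspSpace_le_resSpace (hπ : Function.Surjective π) {ℓ : ℕ} (hℓ : ℓ.Prime) [CharP k ℓ]
    (hA : A.LiesOverPrime ℓ) (hN : ¬ ℓ ∣ N) :
    cuspSpace N k ≤ resSpace (modularFunctionFieldFullC k N) (exists_order_eq_neg_one' k N) := by
  let := algQbarC
  have hN0 : N ≠ 0 := NeZero.ne N
  have hdeg : DegreeInput N k := degreeInput' hN0 hN
  have hgood : GoodReduction N k := goodReduction hπ hℓ hN0 hN
  have := isAlgClosed_of_surjective hπ
  have := hdeg.functionField
  have := hdeg.functionField'
  let M := hdeg.modularConstRed hπ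
  intro w hw
  refine ⟨fun m hm => coeff_of_mem_cuspSpace hw hm, fun g hg => ?_⟩
  obtain ⟨F, f, rfl, hF⟩ := exists_lift hπ hw
  have hg' : g ∈ riemannRochSpace (Finsupp.single (cuspPlaceC k N)
      (max (-(cuspPlaceC k N).ord g)
        (2 * (genusFF (AlgebraicClosure ℚ) (modularFunctionFieldBar N) : ℤ))) : Divisor _ _) := by
    rw [mem_riemannRochSpace_single_iff]
    exact ⟨hg, Or.inr (by omega)⟩
  obtain ⟨G, hG, hGO, hres⟩ := M.exists_lift_cusp hπ hdeg hgood hℓ hA (by omega) hg'
  have hGh : G ∈ holo (cuspPlace N) := mem_holo_of_mem_riemannRochSpace hG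
  have hcoeff := M.coeff_mem_of_holo hπ hdeg hℓ hA hGO hGh
  have h1 := residue_cusp hF hGh
  have h2 : (g : LaurentSeries k) = coeffMap π (liftA A _ hcoeff) := by
    rw [← hres]
    exact M.res_of_integral (f := ⟨G, hGO⟩) (coeffMap_liftA A _ hcoeff).symm
  rw [h2, ← map_mul, coeffMap_coeff]
  rw [← coeffMap_liftA A _ hcoeff, ← map_mul, coeffMap_coeff] at h1
  rw [show ((liftA A _ hcoeff) * F).coeff 0 = 0 from Subtype.ext h1, map_zero]

/-- **The residue space is the space of reductions of cusp forms.** -/
theorem resSpace_eq_cuspSpace (hπ : Function.Surjective π) {ℓ : ℕ} (hℓ : ℓ.Prime) [CharP k ℓ]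
    (hA : A.LiesOverPrime ℓ) (hN : ¬ ℓ ∣ N) :
    resSpace (modularFunctionFieldFullC k N) (exists_order_eq_neg_one' k N) = cuspSpace N k := by
  have hN0 : N ≠ 0 := NeZero.ne N
  have hdeg : DegreeInput N k := degreeInput' hN0 hN
  have hgood : GoodReduction N k := goodReduction hπ hℓ hN0 hN
  have := isAlgClosed_of_surjective hπ
  have := hdeg.functionField
  have := hdeg.functionField'
  have := finiteDimensional_resSpace (exists_order_eq_neg_one' k N)
  symm
  apply Submodule.eq_of_le_of_finrank_le (cuspSpace_le_resSpace hπ hℓ hA hN)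
  rw [finrank_cuspSpace hℓ, ← Fermat.Agent.RH.genusFF_bar_eq_finrank N, hgood]
  exact finrank_resSpace_le _

end Modular

end Fermat.Agent.JAN.Dlog
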